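import Mathlib
import Fermat.Prelude.Def_ModularForm_HeckeOperator
import Fermat.Prelude.Sol.S_ModularForm_heckeT_slash_eq_self_of_mem_Gamma0

set_option autoImplicit false

namespace Fermat.Agent.S22.HeckePerm

open Matrix.SpecialLinearGroup ModularForm UpperHalfPlane
open scoped MatrixGroups ModularForm

section Formal

variable {M W ι : Type*} [Mul M] [AddCommGroup W] [Fintype ι]

/-- Purely formal Hecke relation for "cocycles": `act` is a right action of `M` on `W`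
by additive maps, `α i * γ = δ i * α (σ i)` with `σ` a permutation. -/
theorem formal_hecke_rel (act : M → W →+ W)
    (hact : ∀ (a b : M) (w : W), act (a * b) w = act b (act a w))
    (α δ : ι → M) (σ : Equiv.Perm ι) (γ : M) (h : ∀ i, α i * γ = δ i * α (σ i)) (Φ : W) :
    act γ (∑ i, act (α i) Φ) - ∑ i, act (α i) Φ = ∑ i, act (α (σ i)) (act (δ i) Φ - Φ) := by
  have h1 : act γ (∑ i, act (α i) Φ) = ∑ i, act (α (σ i)) (act (δ i) Φ) := by
    rw [map_sum]
    refine Finset.sum_congr rfl fun i _ => ?_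
    rw [← hact, h i, hact]
  have h2 : ∑ i, act (α i) Φ = ∑ i, act (α (σ i)) Φ :=
    (Equiv.sum_comp σ fun i => act (α i) Φ).symm
  rw [h1, h2, ← Finset.sum_sub_distrib]
  refine Finset.sum_congr rfl fun i _ => ?_
  rw [map_sub]

end Formal

/-- Coset representatives for `T_p`, indexed by `OnePoint (ZMod p)`:
`∞ ↦ heckeDiagMatrix p = [p,0;0,1]`, `j ↦ heckeMatrix p j.val = [1,j;0,p]`. -/
noncomputable def tRep (p : ℕ) (x : OnePoint (ZMod p)) : GL (Fin 2) ℝ :=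
  x.elim (heckeDiagMatrix p) (fun j ↦ heckeMatrix p j.val)

theorem tRep_infty (p : ℕ) : tRep p (OnePoint.infty) = heckeDiagMatrix p := rfl

theorem tRep_coe (p : ℕ) (j : ZMod p) : tRep p (j : OnePoint (ZMod p)) = heckeMatrix p j.val := rfl

theorem tRep_eq_heckeRep (p : ℕ) (x : OnePoint (ZMod p)) :
    tRep p x =
      P2MW.S_ModularForm_heckeT_slash_eq_self_of_mem_Gamma0.ModularForm.HeckeSlashInvariance.heckeRep
        p x := rfl

theorem heckeT_eq_sum_tRep (k : ℤ) (p : ℕ) [NeZero p] (f : ℍ → ℂ) :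
    heckeT k p f = ∑ x : OnePoint (ZMod p), f ∣[k] tRep p x :=
  P2MW.S_ModularForm_heckeT_slash_eq_self_of_mem_Gamma0.ModularForm.HeckeSlashInvariance.heckeT_eq_sum_onePoint
    k f

theorem heckeU_eq_sum_zmod (k : ℤ) (p : ℕ) [NeZero p] (f : ℍ → ℂ) :
    heckeU k p f = ∑ x : ZMod p, f ∣[k] heckeMatrix p x.val :=
  P2MW.S_ModularForm_heckeT_slash_eq_self_of_mem_Gamma0.ModularForm.HeckeSlashInvariance.heckeU_eq_sum_zmod
    k f

theorem gamma0_dvd {N : ℕ} {g : SL(2, ℤ)} (hg : g ∈ CongruenceSubgroup.Gamma0 N) :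
    (N : ℤ) ∣ g 1 0 :=
  (ZMod.intCast_zmod_eq_zero_iff_dvd _ _).mp (CongruenceSubgroup.Gamma0_mem.mp hg)

theorem mem_gamma0_of_dvd {N : ℕ} {g : SL(2, ℤ)} (hg : (N : ℤ) ∣ g 1 0) :
    g ∈ CongruenceSubgroup.Gamma0 N :=
  CongruenceSubgroup.Gamma0_mem.mpr ((ZMod.intCast_zmod_eq_zero_iff_dvd _ _).mpr hg)

/-- Coset permutation for `T_p`, `p ∤ N`: for `g ∈ Γ₀(N)` there are a permutation `σ` of
`OnePoint (ZMod p)` and `g' x ∈ Γ₀(N)` with `tRep p x * g = g' x * tRep p (σ x)`. -/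
theorem exists_perm_T {N p : ℕ} (hp : p.Prime) (hpN : ¬ p ∣ N) (g : SL(2, ℤ))
    (hg : g ∈ CongruenceSubgroup.Gamma0 N) :
    ∃ (σ : Equiv.Perm (OnePoint (ZMod p))) (g' : OnePoint (ZMod p) → SL(2, ℤ)),
      (∀ x, g' x ∈ CongruenceSubgroup.Gamma0 N) ∧
      ∀ x, tRep p x * mapGL ℝ g = mapGL ℝ (g' x) * tRep p (σ x) := by
  have : Fact p.Prime := ⟨hp⟩
  have key := fun x =>
    P2MW.S_ModularForm_heckeT_slash_eq_self_of_mem_Gamma0.ModularForm.HeckeSlashInvariance.heckeRep_mul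
      hpN g (gamma0_dvd hg) x
  choose g' hg' hmul using key
  exact ⟨MulAction.toPerm
    (P2MW.S_ModularForm_heckeT_slash_eq_self_of_mem_Gamma0.ModularForm.HeckeSlashInvariance.redMatrix
      p g), g', fun x => mem_gamma0_of_dvd (hg' x), fun x => hmul x⟩

/-- Coset permutation for `U_p`, `p ∣ N`. -/
theorem exists_perm_U {N p : ℕ} [NeZero p] (hpN : p ∣ N) (g : SL(2, ℤ))
    (hg : g ∈ CongruenceSubgroup.Gamma0 N) :
    ∃ (σ : Equiv.Perm (ZMod p)) (g' : ZMod p → SL(2, ℤ)),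
      (∀ x, g' x ∈ CongruenceSubgroup.Gamma0 N) ∧
      ∀ x, heckeMatrix p x.val * mapGL ℝ g = mapGL ℝ (g' x) * heckeMatrix p (σ x).val := by
  have hcN : (N : ℤ) ∣ g 1 0 := gamma0_dvd hg
  have hc : (p : ℤ) ∣ g 1 0 := (Int.natCast_dvd_natCast.mpr hpN).trans hcN
  have key := fun x =>
    P2MW.S_ModularForm_heckeT_slash_eq_self_of_mem_Gamma0.ModularForm.HeckeSlashInvariance.heckeMatrix_mul_of_dvd
      g hc x
  choose g' hg' hmul using key
  refine ⟨P2MW.S_ModularForm_heckeT_slash_eq_self_of_mem_Gamma0.ModularForm.HeckeSlashInvariance.affinePerm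
    g ((ZMod.intCast_zmod_eq_zero_iff_dvd _ _).mpr hc), g', fun x => ?_, fun x => hmul x⟩
  refine mem_gamma0_of_dvd ?_
  rw [hg' x]
  exact Dvd.dvd.mul_left hcN _

end Fermat.Agent.S22.HeckePerm
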