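import Mathlib

set_option autoImplicit false

namespace Fermat.Agent.S22.GammaFG

open scoped MatrixGroups

theorem sl2z_fg : Group.FG SL(2, ℤ) := by
  rw [Group.fg_iff]
  refine ⟨{ModularGroup.S, ModularGroup.T}, ?_, ?_⟩
  · exact SpecialLinearGroup.SL2Z_generators
  · exact Set.toFinite _

theorem gamma0_fg (N : ℕ) [NeZero N] : Group.FG (CongruenceSubgroup.Gamma0 N) := by
  have := sl2z_fg
  exact Subgroup.fg_of_index_ne_zero _

theorem gamma0_subgroup_fg (N : ℕ) [NeZero N] : (CongruenceSubgroup.Gamma0 N).FG :=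
  (Group.fg_iff_subgroup_fg _).mp (gamma0_fg N)

theorem exists_finset_closure_eq_gamma0 (N : ℕ) [NeZero N] :
    ∃ S : Finset SL(2, ℤ), Subgroup.closure (S : Set SL(2, ℤ)) = CongruenceSubgroup.Gamma0 N :=
  gamma0_subgroup_fg N

theorem exists_finset_gamma0 (N : ℕ) [NeZero N] :
    ∃ S : Finset SL(2, ℤ), (∀ g ∈ S, g ∈ CongruenceSubgroup.Gamma0 N) ∧
      Subgroup.closure (S : Set SL(2, ℤ)) = CongruenceSubgroup.Gamma0 N := by
  obtain ⟨S, hS⟩ := exists_finset_closure_eq_gamma0 N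
  refine ⟨S, fun g hg => ?_, hS⟩
  rw [← hS]
  exact Subgroup.subset_closure hg

theorem gamma0_induction (N : ℕ) [NeZero N] :
    ∃ S : Finset SL(2, ℤ), (∀ g ∈ S, g ∈ CongruenceSubgroup.Gamma0 N) ∧
      ∀ (P : SL(2, ℤ) → Prop), P 1 → (∀ g ∈ S, P g) →
        (∀ g h, g ∈ CongruenceSubgroup.Gamma0 N → h ∈ CongruenceSubgroup.Gamma0 N →
          P g → P h → P (g * h)) →
        (∀ g, g ∈ CongruenceSubgroup.Gamma0 N → P g → P g⁻¹) →
        ∀ g ∈ CongruenceSubgroup.Gamma0 N, P g := by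
  obtain ⟨S, hS, hcl⟩ := exists_finset_gamma0 N
  refine ⟨S, hS, fun P h1 hgen hmul hinv g hg => ?_⟩
  rw [← hcl] at hg
  have key : ∀ x ∈ Subgroup.closure (S : Set SL(2, ℤ)),
      x ∈ CongruenceSubgroup.Gamma0 N ∧ P x := by
    intro x hx
    induction hx using Subgroup.closure_induction with
    | mem x hx => exact ⟨hS x hx, hgen x hx⟩
    | one => exact ⟨Subgroup.one_mem _, h1⟩
    | mul x y _ _ ihx ihy =>
      exact ⟨Subgroup.mul_mem _ ihx.1 ihy.1, hmul x y ihx.1 ihy.1 ihx.2 ihy.2⟩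
    | inv x _ ihx => exact ⟨Subgroup.inv_mem _ ihx.1, hinv x ihx.1 ihx.2⟩
  exact (key g hg).2

end Fermat.Agent.S22.GammaFG
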