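import Mathlib

set_option autoImplicit false

namespace Fermat.Agent.S22.PolyAct

open Polynomial UpperHalfPlane

noncomputable section

def linA (g : GL (Fin 2) ℝ) : ℂ[X] := C ((g 0 0 : ℝ) : ℂ) * X + C ((g 0 1 : ℝ) : ℂ)

def linC (g : GL (Fin 2) ℝ) : ℂ[X] := C ((g 1 0 : ℝ) : ℂ) * X + C ((g 1 1 : ℝ) : ℂ)

def bas (n : ℕ) (g : GL (Fin 2) ℝ) (j : ℕ) : ℂ[X] := linA g ^ j * linC g ^ (n - j)

def polyAct (n : ℕ) (g : GL (Fin 2) ℝ) : ℂ[X] →ₗ[ℂ] ℂ[X] :=
  ∑ j ∈ Finset.range (n + 1), (lcoeff ℂ j).smulRight (bas n g j)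

theorem polyAct_apply (n : ℕ) (g : GL (Fin 2) ℝ) (P : ℂ[X]) :
    polyAct n g P = ∑ j ∈ Finset.range (n + 1), P.coeff j • bas n g j := by
  simp [polyAct, LinearMap.sum_apply]

theorem eval_linA (g : GL (Fin 2) ℝ) (t : ℂ) : (linA g).eval t = num g t := by
  simp [linA, num]

theorem eval_linC (g : GL (Fin 2) ℝ) (t : ℂ) : (linC g).eval t = denom g t := by
  simp [linC, denom]

theorem natDegree_linA_le (g : GL (Fin 2) ℝ) : (linA g).natDegree ≤ 1 := by
  unfold linA
  compute_degree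

theorem natDegree_linC_le (g : GL (Fin 2) ℝ) : (linC g).natDegree ≤ 1 := by
  unfold linC
  compute_degree

theorem natDegree_bas_le (n : ℕ) (g : GL (Fin 2) ℝ) {j : ℕ} (hj : j ≤ n) :
    (bas n g j).natDegree ≤ n := by
  unfold bas
  refine (natDegree_mul_le).trans ?_
  have h1 : (linA g ^ j).natDegree ≤ j := by
    refine (natDegree_pow_le).trans ?_
    have := natDegree_linA_le g
    nlinarith
  have h2 : (linC g ^ (n - j)).natDegree ≤ n - j := by
    refine (natDegree_pow_le).trans ?_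
    have := natDegree_linC_le g
    nlinarith
  omega

theorem natDegree_polyAct_le (n : ℕ) (g : GL (Fin 2) ℝ) (P : ℂ[X]) :
    (polyAct n g P).natDegree ≤ n := by
  rw [polyAct_apply]
  refine natDegree_sum_le_of_forall_le _ _ ?_
  intro j hj
  refine (natDegree_smul_le _ _).trans ?_
  exact natDegree_bas_le n g (Nat.lt_succ_iff.mp (Finset.mem_range.mp hj))

theorem eval_polyAct (n : ℕ) (g : GL (Fin 2) ℝ) {P : ℂ[X]} (hP : P.natDegree ≤ n) {t : ℂ}
    (ht : denom g t ≠ 0) :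
    (polyAct n g P).eval t = denom g t ^ n * P.eval (num g t / denom g t) := by
  rw [polyAct_apply, eval_finset_sum, eval_eq_sum_range' (Nat.lt_succ_of_le hP), Finset.mul_sum]
  refine Finset.sum_congr rfl fun j hj => ?_
  have hj' : j ≤ n := Nat.lt_succ_iff.mp (Finset.mem_range.mp hj)
  simp only [bas, eval_smul, eval_mul, eval_pow, eval_linA, eval_linC, smul_eq_mul]
  rw [div_pow]
  have : denom g t ^ n = denom g t ^ (n - j) * denom g t ^ j := by
    rw [← pow_add, Nat.sub_add_cancel hj']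
  rw [this]
  field_simp

theorem infinite_im_ne_zero : Set.Infinite {t : ℂ | t.im ≠ 0} := by
  refine Set.infinite_of_injective_forall_mem (f := fun m : ℕ => ((m : ℂ) + Complex.I)) ?_ ?_
  · intro a b h
    simpa using h
  · intro m
    simp

theorem eq_of_eval_eq_of_im_ne_zero {P Q : ℂ[X]}
    (h : ∀ t : ℂ, t.im ≠ 0 → P.eval t = Q.eval t) : P = Q :=
  eq_of_infinite_eval_eq P Q (infinite_im_ne_zero.mono fun t ht => h t ht)

theorem num_mul (g h : GL (Fin 2) ℝ) {z : ℂ} (hz : z.im ≠ 0) :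
    num (g * h) z = num g (num h z / denom h z) * denom h z := by
  change _ = (_ * (_ / _) + _) * _
  field_simp [denom_ne_zero_of_im h hz]
  simp only [denom, Units.val_mul, Matrix.mul_apply, Fin.sum_univ_succ, Finset.univ_unique,
    Fin.default_eq_zero, Finset.sum_singleton, Fin.succ_zero_eq_one, Complex.ofReal_add,
    Complex.ofReal_mul, num]
  ring

theorem moebius_im_ne_zero (g : GL (Fin 2) ℝ) {z : ℂ} (hz : z.im ≠ 0) :
    (num g z / denom g z).im ≠ 0 := by
  rw [moebius_im]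
  exact div_ne_zero (mul_ne_zero g.det_ne_zero hz) (normSq_denom_ne_zero _ hz)

theorem polyAct_mul (n : ℕ) (g h : GL (Fin 2) ℝ) {P : ℂ[X]} (hP : P.natDegree ≤ n) :
    polyAct n (g * h) P = polyAct n h (polyAct n g P) := by
  apply eq_of_eval_eq_of_im_ne_zero
  intro t ht
  have ht' := moebius_im_ne_zero h ht
  rw [eval_polyAct n (g * h) hP (denom_ne_zero_of_im _ ht),
    eval_polyAct n h (natDegree_polyAct_le n g P) (denom_ne_zero_of_im _ ht),
    eval_polyAct n g hP (denom_ne_zero_of_im _ ht'), denom_cocycle g h ht, num_mul g h ht,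
    mul_pow]
  have h1 := denom_ne_zero_of_im h ht
  have h2 := denom_ne_zero_of_im g ht'
  rw [mul_div_mul_right _ _ h1]
  ring

theorem polyAct_one (n : ℕ) {P : ℂ[X]} (hP : P.natDegree ≤ n) : polyAct n 1 P = P := by
  apply eq_of_eval_eq_of_im_ne_zero
  intro t ht
  rw [eval_polyAct n 1 hP (denom_ne_zero_of_im _ ht)]
  simp [num, denom]

/-- the kernel identity -/
theorem polyAct_kernel (n : ℕ) (g : GL (Fin 2) ℝ) {τ : ℂ} (hτ : τ.im ≠ 0) :
    polyAct n g ((C (num g τ / denom g τ) - X) ^ n) =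
      C (((g.det : ℝ) : ℂ) ^ n * (denom g τ ^ n)⁻¹) * (C τ - X) ^ n := by
  apply eq_of_eval_eq_of_im_ne_zero
  intro t ht
  have hdeg : ((C (num g τ / denom g τ) - X : ℂ[X]) ^ n).natDegree ≤ n := by
    refine (natDegree_pow_le).trans ?_
    have : (C (num g τ / denom g τ) - X : ℂ[X]).natDegree ≤ 1 := by compute_degree
    nlinarith
  have h1 := denom_ne_zero_of_im g ht
  have h2 := denom_ne_zero_of_im g hτ
  rw [eval_polyAct n g hdeg h1]
  simp only [eval_mul, eval_pow, eval_sub, eval_C, eval_X]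
  have key : num g τ / denom g τ - num g t / denom g t =
      ((g.det : ℝ) : ℂ) * (τ - t) / (denom g τ * denom g t) := by
    rw [div_sub_div _ _ h2 h1]
    congr 1
    simp only [num, denom, Matrix.GeneralLinearGroup.val_det_apply, Matrix.det_fin_two]
    push_cast
    ring
  rw [key, div_pow, mul_pow, mul_pow]
  field_simp

theorem polyAct_coeff_int (n : ℕ) (g : GL (Fin 2) ℝ)
    (hg : ∀ i j, ∃ z : ℤ, (g i j : ℝ) = z) :
    ∃ c : ℕ → ℕ → ℤ, ∀ (P : ℂ[X]) (m : ℕ),
      (polyAct n g P).coeff m = ∑ j ∈ Finset.range (n + 1), (c m j : ℂ) * P.coeff j := by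
  obtain ⟨a, ha⟩ := hg 0 0
  obtain ⟨b, hb⟩ := hg 0 1
  obtain ⟨c, hc⟩ := hg 1 0
  obtain ⟨d, hd⟩ := hg 1 1
  let B : ℕ → ℤ[X] := fun j => (C a * X + C b) ^ j * (C c * X + C d) ^ (n - j)
  have hB : ∀ j, bas n g j = (B j).map (Int.castRingHom ℂ) := by
    intro j
    simp [bas, linA, linC, B, ha, hb, hc, hd]
  refine ⟨fun m j => (B j).coeff m, fun P m => ?_⟩
  rw [polyAct_apply, finset_sum_coeff]
  refine Finset.sum_congr rfl fun j _ => ?_
  rw [coeff_smul, hB, coeff_map, smul_eq_mul, mul_comm]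
  simp

end

end Fermat.Agent.S22.PolyAct
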