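import Mathlib
import Fermat.Agent.S22.PolyAct

set_option autoImplicit false

namespace Fermat.Agent.S22.EichlerDefs

open Polynomial UpperHalfPlane Filter Topology

noncomputable section

/-- coefficientwise: `F` is a polynomial-valued primitive of `f τ • (τ - X)^n`. -/
def IsE1 (n : ℕ) (f : ℍ → ℂ) (F : ℍ → ℂ[X]) : Prop :=
  (∀ τ, (F τ).natDegree ≤ n) ∧
  ∀ (j : ℕ) (τ : ℍ), HasDerivAt (fun z : ℂ => (F (ofComplex z)).coeff j)
    (f τ * ((C (τ : ℂ) - X) ^ n).coeff j) (τ : ℂ)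

/-- coefficientwise decay along every vertical line. -/
def IsE2 (F : ℍ → ℂ[X]) : Prop :=
  ∀ (x : ℝ) (j : ℕ),
    Tendsto (fun y : ℝ => (F (ofComplex ((x : ℂ) + (y : ℂ) * Complex.I))).coeff j) atTop (𝓝 0)

theorem IsE1.add {n : ℕ} {f g : ℍ → ℂ} {F G : ℍ → ℂ[X]} (hF : IsE1 n f F) (hG : IsE1 n g G) :
    IsE1 n (f + g) (F + G) := by
  refine ⟨fun τ => (natDegree_add_le _ _).trans (max_le (hF.1 τ) (hG.1 τ)), fun j τ => ?_⟩
  have h := (hF.2 j τ).add (hG.2 j τ)
  have e : (fun z : ℂ => ((F + G) (ofComplex z)).coeff j) =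
      (fun z : ℂ => (F (ofComplex z)).coeff j) + fun z => (G (ofComplex z)).coeff j := by
    funext z
    simp
  rw [e, Pi.add_apply, add_mul]
  exact h

theorem IsE1.smul {n : ℕ} {f : ℍ → ℂ} {F : ℍ → ℂ[X]} (hF : IsE1 n f F) (c : ℂ) :
    IsE1 n (c • f) (c • F) := by
  refine ⟨fun τ => (natDegree_smul_le _ _).trans (hF.1 τ), fun j τ => ?_⟩
  have h := (hF.2 j τ).const_mul c
  have e : (fun z : ℂ => ((c • F) (ofComplex z)).coeff j) =
      (fun z : ℂ => c * (F (ofComplex z)).coeff j) := by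
    funext z
    simp
  rw [e, Pi.smul_apply, smul_eq_mul, mul_assoc]
  exact h

theorem IsE1.neg {n : ℕ} {f : ℍ → ℂ} {F : ℍ → ℂ[X]} (hF : IsE1 n f F) :
    IsE1 n (-f) (-F) := by
  have := hF.smul (-1)
  simpa using this

theorem IsE1.sub {n : ℕ} {f g : ℍ → ℂ} {F G : ℍ → ℂ[X]} (hF : IsE1 n f F) (hG : IsE1 n g G) :
    IsE1 n (f - g) (F - G) := by
  have := hF.add hG.neg
  simpa [sub_eq_add_neg] using this

theorem isE1_zero (n : ℕ) : IsE1 n 0 0 := by
  refine ⟨fun τ => by simp, fun j τ => ?_⟩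
  simpa using hasDerivAt_const (τ : ℂ) (0 : ℂ)

theorem IsE1.sum {n : ℕ} {ι : Type*} (s : Finset ι) {f : ι → ℍ → ℂ} {F : ι → ℍ → ℂ[X]}
    (h : ∀ i ∈ s, IsE1 n (f i) (F i)) : IsE1 n (∑ i ∈ s, f i) (∑ i ∈ s, F i) := by
  classical
  induction s using Finset.induction_on with
  | empty => simpa using isE1_zero n
  | insert i t hi IH =>
    rw [Finset.sum_insert hi, Finset.sum_insert hi]
    exact (h i (Finset.mem_insert_self i t)).add
      (IH fun i' hi' => h i' (Finset.mem_insert_of_mem hi'))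

theorem IsE2.add {F G : ℍ → ℂ[X]} (hF : IsE2 F) (hG : IsE2 G) : IsE2 (F + G) := by
  intro x j
  have h := (hF x j).add (hG x j)
  rw [add_zero] at h
  refine h.congr fun y => ?_
  simp

theorem IsE2.smul {F : ℍ → ℂ[X]} (hF : IsE2 F) (c : ℂ) : IsE2 (c • F) := by
  intro x j
  have h := (hF x j).const_mul c
  rw [mul_zero] at h
  refine h.congr fun y => ?_
  simp

theorem IsE2.neg {F : ℍ → ℂ[X]} (hF : IsE2 F) : IsE2 (-F) := by
  have := hF.smul (-1)
  simpa using this

theorem IsE2.sub {F G : ℍ → ℂ[X]} (hF : IsE2 F) (hG : IsE2 G) : IsE2 (F - G) := by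
  have := hF.add hG.neg
  simpa [sub_eq_add_neg] using this

theorem isE2_zero : IsE2 0 := by
  intro x j
  simp

theorem IsE2.sum {ι : Type*} (s : Finset ι) {F : ι → ℍ → ℂ[X]}
    (h : ∀ i ∈ s, IsE2 (F i)) : IsE2 (∑ i ∈ s, F i) := by
  classical
  induction s using Finset.induction_on with
  | empty => simpa using isE2_zero
  | insert i t hi IH =>
    rw [Finset.sum_insert hi]
    exact (h i (Finset.mem_insert_self i t)).add
      (IH fun i' hi' => h i' (Finset.mem_insert_of_mem hi'))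

theorem isPreconnected_upperHalfPlaneSet : IsPreconnected {z : ℂ | 0 < z.im} :=
  (convex_halfSpace_im_gt 0).isPreconnected

/-- a polynomial-valued function all of whose coefficients have zero derivative is constant. -/
theorem IsE1.const_of_zero {n : ℕ} {F : ℍ → ℂ[X]} (hF : IsE1 n 0 F) (τ τ' : ℍ) : F τ = F τ' := by
  ext j
  have hd : ∀ z : ℂ, 0 < z.im → HasDerivAt (fun z : ℂ => (F (ofComplex z)).coeff j) 0 z := by
    intro z hz
    have := hF.2 j ⟨z, hz⟩
    simpa using this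
  have key := IsOpen.is_const_of_deriv_eq_zero (𝕜 := ℂ) (s := {z : ℂ | 0 < z.im})
    (f := fun z : ℂ => (F (ofComplex z)).coeff j) isOpen_upperHalfPlaneSet
    isPreconnected_upperHalfPlaneSet
    (fun z hz => (hd z hz).differentiableAt.differentiableWithinAt)
    (fun z hz => (hd z hz).deriv) (x := (τ : ℂ)) (y := (τ' : ℂ)) τ.im_pos τ'.im_pos
  simpa [ofComplex_apply] using key

theorem eq_zero_of_const_of_isE2 {F : ℍ → ℂ[X]} (hc : ∀ τ τ', F τ = F τ') (h2 : IsE2 F)
    (τ : ℍ) : F τ = 0 := by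
  ext j
  have h := h2 0 j
  have hconst : (fun y : ℝ => (F (ofComplex (((0 : ℝ) : ℂ) + (y : ℂ) * Complex.I))).coeff j) =
      fun _ => (F τ).coeff j := by
    funext y
    rw [hc _ τ]
  rw [hconst] at h
  simpa using (tendsto_nhds_unique h tendsto_const_nhds).symm

theorem eichler_unique {n : ℕ} {f : ℍ → ℂ} {F F' : ℍ → ℂ[X]} (h1 : IsE1 n f F) (h2 : IsE2 F)
    (h1' : IsE1 n f F') (h2' : IsE2 F') : F = F' := by
  have hD : IsE1 n 0 (F - F') := by
    have := h1.sub h1'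
    simpa using this
  funext τ
  have := eq_zero_of_const_of_isE2 (fun τ τ' => hD.const_of_zero τ τ') (h2.sub h2') τ
  exact sub_eq_zero.mp this

end

end Fermat.Agent.S22.EichlerDefs
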