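import Mathlib
import Fermat.Agent.S22.EichlerDefs

set_option autoImplicit false

namespace Fermat.Agent.S22.Slash

open Polynomial UpperHalfPlane Filter Topology
open scoped ModularForm
open Fermat.Agent.S22.PolyAct Fermat.Agent.S22.EichlerDefs

noncomputable section

theorem coeff_polyAct (n : ℕ) (g : GL (Fin 2) ℝ) (P : ℂ[X]) (j : ℕ) :
    (polyAct n g P).coeff j = ∑ m ∈ Finset.range (n + 1), P.coeff m * (bas n g m).coeff j := by
  rw [polyAct_apply, finset_sum_coeff]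
  refine Finset.sum_congr rfl fun m _ => ?_
  rw [coeff_smul, smul_eq_mul]

theorem slash_apply_of_det_pos (n : ℕ) (f : ℍ → ℂ) {g : GL (Fin 2) ℝ} (hg : 0 < g.val.det)
    (τ : ℍ) :
    (f ∣[(n : ℤ) + 2] g) τ =
      f (g • τ) * ((g.val.det : ℝ) : ℂ) ^ (n + 1) * (denom g τ ^ (n + 2))⁻¹ := by
  have hdet : g.det.val = g.val.det := Matrix.GeneralLinearGroup.val_det_apply g
  have hσ : ∀ x, σ g x = x := by
    intro x
    simp [σ, hdet, hg]
  rw [ModularForm.slash_apply, hσ, hdet, abs_of_pos hg]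
  have e1 : ((n : ℤ) + 2 - 1) = ((n + 1 : ℕ) : ℤ) := by push_cast; ring
  have e2 : (-((n : ℤ) + 2)) = -((n + 2 : ℕ) : ℤ) := by push_cast; ring
  rw [e1, e2, zpow_natCast, zpow_neg, zpow_natCast]

theorem IsE1.slash {n : ℕ} {f : ℍ → ℂ} {F : ℍ → ℂ[X]} (hF : IsE1 n f F) {g : GL (Fin 2) ℝ}
    (hg : 0 < g.val.det) :
    IsE1 n (f ∣[(n : ℤ) + 2] g) (fun τ => polyAct n g (F (g • τ))) := by
  refine ⟨fun τ => natDegree_polyAct_le n g _, fun j τ => ?_⟩
  have hdet : g.det.val = g.val.det := Matrix.GeneralLinearGroup.val_det_apply g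
  have hg' : 0 < g.det.val := by rw [hdet]; exact hg
  set K : ℂ[X] := (C ((g • τ : ℍ) : ℂ) - X) ^ n with hK
  have hμ : HasDerivAt (fun z : ℂ => ((g • ofComplex z : ℍ) : ℂ))
      (((g.val.det : ℝ) : ℂ) / denom g τ ^ 2) (τ : ℂ) := (hasStrictDerivAt_smul hg τ).hasDerivAt
  have hterm : ∀ m : ℕ, HasDerivAt (fun z : ℂ => (F (g • ofComplex z)).coeff m)
      (f (g • τ) * K.coeff m * (((g.val.det : ℝ) : ℂ) / denom g τ ^ 2)) (τ : ℂ) := by
    intro m
    have h1 := hF.2 m (g • τ)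
    have h1' : HasDerivAt (fun w : ℂ => (F (ofComplex w)).coeff m) (f (g • τ) * K.coeff m)
        ((fun z : ℂ => ((g • ofComplex z : ℍ) : ℂ)) (τ : ℂ)) := by
      simp only [ofComplex_apply]
      exact h1
    have h2 := HasDerivAt.comp (τ : ℂ) h1' hμ
    refine h2.congr_of_eventuallyEq (Eventually.of_forall fun z => ?_)
    simp [Function.comp, ofComplex_apply]
  have hsum : HasDerivAt (fun z : ℂ => ∑ m ∈ Finset.range (n + 1),
      (F (g • ofComplex z)).coeff m * (bas n g m).coeff j)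
      (∑ m ∈ Finset.range (n + 1), f (g • τ) * K.coeff m *
        (((g.val.det : ℝ) : ℂ) / denom g τ ^ 2) * (bas n g m).coeff j) (τ : ℂ) :=
    HasDerivAt.fun_sum fun m _ => (hterm m).mul_const _
  have hfun : (fun z : ℂ => (polyAct n g (F (g • ofComplex z))).coeff j) =
      (fun z : ℂ => ∑ m ∈ Finset.range (n + 1),
        (F (g • ofComplex z)).coeff m * (bas n g m).coeff j) := by
    funext z
    rw [coeff_polyAct]
  rw [hfun]
  refine hsum.congr_deriv ?_
  have hsum2 : ∑ m ∈ Finset.range (n + 1), f (g • τ) * K.coeff m *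
        (((g.val.det : ℝ) : ℂ) / denom g τ ^ 2) * (bas n g m).coeff j =
      f (g • τ) * (((g.val.det : ℝ) : ℂ) / denom g τ ^ 2) * (polyAct n g K).coeff j := by
    rw [coeff_polyAct, Finset.mul_sum]
    refine Finset.sum_congr rfl fun m _ => ?_
    ring
  rw [hsum2]
  have hK2 : polyAct n g K =
      C (((g.det : ℝ) : ℂ) ^ n * (denom g τ ^ n)⁻¹) * (C (τ : ℂ) - X) ^ n := by
    rw [hK, coe_smul_of_det_pos hg' τ]
    exact polyAct_kernel n g τ.im_ne_zero
  rw [hK2, coeff_C_mul, slash_apply_of_det_pos n f hg τ, hdet]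
  have hden : denom g τ ≠ 0 := denom_ne_zero g τ
  field_simp
  ring

theorem IsE2.slash_upper {n : ℕ} {F : ℍ → ℂ[X]} (hF : IsE2 F) {g : GL (Fin 2) ℝ}
    (hc : g 1 0 = 0) (ha : 0 < g 0 0) (hd : 0 < g 1 1) :
    IsE2 (fun τ => polyAct n g (F (g • τ))) := by
  intro x j
  have hdet : g.det.val = g 0 0 * g 1 1 := by
    rw [Matrix.GeneralLinearGroup.val_det_apply, Matrix.det_fin_two, hc]
    ring
  have hg' : 0 < g.det.val := by rw [hdet]; positivity
  have hfun : (fun y : ℝ => (polyAct n g (F (g • ofComplex ((x : ℂ) + (y : ℂ) * Complex.I)))).coeff j) =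
      (fun y : ℝ => ∑ m ∈ Finset.range (n + 1),
        (F (g • ofComplex ((x : ℂ) + (y : ℂ) * Complex.I))).coeff m * (bas n g m).coeff j) := by
    funext y
    rw [coeff_polyAct]
  rw [hfun]
  have hzero : (0 : ℂ) = ∑ m ∈ Finset.range (n + 1), 0 * (bas n g m).coeff j := by simp
  rw [hzero]
  refine tendsto_finset_sum _ fun m _ => Tendsto.mul_const _ ?_
  -- the point g • (x + i y) is (a x + b)/d + i (a/d) y
  set x' : ℝ := (g 0 0 * x + g 0 1) / g 1 1 with hx'
  have hlim := (hF x' m).comp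
    (Filter.Tendsto.const_mul_atTop (div_pos ha hd) tendsto_id : Tendsto (fun y : ℝ => g 0 0 / g 1 1 * y) atTop atTop)
  refine hlim.congr' ?_
  filter_upwards [eventually_gt_atTop (0 : ℝ)] with y hy
  simp only [Function.comp]
  congr 2
  have hpos : 0 < (((x : ℂ) + (y : ℂ) * Complex.I)).im := by simpa using hy
  rw [ofComplex_apply_of_im_pos hpos]
  apply UpperHalfPlane.ext
  rw [coe_smul_of_det_pos hg']
  have hpos' : 0 < (((x' : ℂ) + ((g 0 0 / g 1 1 * y : ℝ) : ℂ) * Complex.I)).im := by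
    simp
    positivity
  rw [ofComplex_apply_of_im_pos hpos']
  simp only [num, denom, hc, hx']
  have hd' : ((g 1 1 : ℝ) : ℂ) ≠ 0 := by exact_mod_cast hd.ne'
  push_cast
  rw [zero_mul, zero_add]
  field_simp
  ring

end

end Fermat.Agent.S22.Slash
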