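import Mathlib
import Fermat.Agent.S22.Slash

set_option autoImplicit false

namespace Fermat.Agent.S22.Cocycle

open Polynomial UpperHalfPlane Filter Topology
open scoped ModularForm
open Fermat.Agent.S22.PolyAct Fermat.Agent.S22.EichlerDefs Fermat.Agent.S22.Slash

noncomputable section

/-- the period polynomial of a polynomial-valued primitive `F` at the matrix `g`. -/
def period (n : ℕ) (F : ℍ → ℂ[X]) (g : GL (Fin 2) ℝ) : ℂ[X] :=
  F I - polyAct n g (F (g • I))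

theorem period_add (n : ℕ) (F G : ℍ → ℂ[X]) (g : GL (Fin 2) ℝ) :
    period n (F + G) g = period n F g + period n G g := by
  simp only [period, Pi.add_apply, map_add]
  ring

theorem period_smul (n : ℕ) (c : ℂ) (F : ℍ → ℂ[X]) (g : GL (Fin 2) ℝ) :
    period n (c • F) g = c • period n F g := by
  simp only [period, Pi.smul_apply, map_smul, smul_sub]

theorem period_spec {n : ℕ} {f : ℍ → ℂ} {F : ℍ → ℂ[X]} (hF : IsE1 n f F) {g : GL (Fin 2) ℝ}
    (hg : 0 < g.val.det) (hfg : f ∣[(n : ℤ) + 2] g = f) (τ : ℍ) :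
    F τ - polyAct n g (F (g • τ)) = period n F g := by
  have hD : IsE1 n 0 (F - fun τ => polyAct n g (F (g • τ))) := by
    have := hF.sub (IsE1.slash hF hg)
    rwa [hfg, sub_self] at this
  exact hD.const_of_zero τ I

theorem polyAct_smul_eq {n : ℕ} {f : ℍ → ℂ} {F : ℍ → ℂ[X]} (hF : IsE1 n f F) {g : GL (Fin 2) ℝ}
    (hg : 0 < g.val.det) (hfg : f ∣[(n : ℤ) + 2] g = f) (τ : ℍ) :
    polyAct n g (F (g • τ)) = F τ - period n F g := by
  rw [← period_spec hF hg hfg τ]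
  ring

theorem period_one {n : ℕ} {f : ℍ → ℂ} {F : ℍ → ℂ[X]} (hF : IsE1 n f F) :
    period n F 1 = 0 := by
  rw [period, one_smul, polyAct_one n (hF.1 I), sub_self]

theorem period_mul {n : ℕ} {f : ℍ → ℂ} {F : ℍ → ℂ[X]} (hF : IsE1 n f F) {γ δ : GL (Fin 2) ℝ}
    (hγ : 0 < γ.val.det) (hfγ : f ∣[(n : ℤ) + 2] γ = f) :
    period n F (γ * δ) = period n F δ + polyAct n δ (period n F γ) := by
  rw [period, polyAct_mul n γ δ (hF.1 _), mul_smul, polyAct_smul_eq hF hγ hfγ (δ • I), map_sub]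
  simp only [period]
  ring

theorem period_inv {n : ℕ} {f : ℍ → ℂ} {F : ℍ → ℂ[X]} (hF : IsE1 n f F) {γ : GL (Fin 2) ℝ}
    (hγ : 0 < γ.val.det) (hfγ : f ∣[(n : ℤ) + 2] γ = f) :
    period n F γ⁻¹ = - polyAct n γ⁻¹ (period n F γ) := by
  have h := period_mul (δ := γ⁻¹) hF hγ hfγ
  rw [mul_inv_cancel, period_one hF] at h
  exact eq_neg_of_add_eq_zero_left h.symm

/-- the Hecke-translated primitive. -/
def heckeF {ι : Type*} [Fintype ι] (n : ℕ) (α : ι → GL (Fin 2) ℝ) (F : ℍ → ℂ[X]) : ℍ → ℂ[X] :=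
  fun τ => ∑ i, polyAct n (α i) (F (α i • τ))

theorem isE1_heckeF {ι : Type*} [Fintype ι] {n : ℕ} {f : ℍ → ℂ} {F : ℍ → ℂ[X]}
    (hF : IsE1 n f F) (α : ι → GL (Fin 2) ℝ) (hα : ∀ i, 0 < (α i).val.det) :
    IsE1 n (∑ i, f ∣[(n : ℤ) + 2] α i) (heckeF n α F) := by
  have h := IsE1.sum (n := n) (Finset.univ : Finset ι)
    (f := fun i => f ∣[(n : ℤ) + 2] α i) (F := fun i τ => polyAct n (α i) (F (α i • τ)))
    (fun i _ => IsE1.slash hF (hα i))
  have e : (∑ i, fun τ => polyAct n (α i) (F (α i • τ))) = heckeF n α F := by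
    funext τ
    simp [heckeF, Finset.sum_apply]
  rwa [e] at h

theorem isE2_heckeF {ι : Type*} [Fintype ι] {n : ℕ} {F : ℍ → ℂ[X]}
    (hF : IsE2 F) (α : ι → GL (Fin 2) ℝ) (hc : ∀ i, α i 1 0 = 0) (ha : ∀ i, 0 < α i 0 0)
    (hd : ∀ i, 0 < α i 1 1) :
    IsE2 (heckeF n α F) := by
  have h := IsE2.sum (Finset.univ : Finset ι)
    (F := fun i τ => polyAct n (α i) (F (α i • τ)))
    (fun i _ => IsE2.slash_upper hF (hc i) (ha i) (hd i))
  have e : (∑ i, fun τ => polyAct n (α i) (F (α i • τ))) = heckeF n α F := by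
    funext τ
    simp [heckeF, Finset.sum_apply]
  rwa [e] at h

theorem period_heckeF {ι : Type*} [Fintype ι] {n : ℕ} {f : ℍ → ℂ} {F : ℍ → ℂ[X]}
    (hF : IsE1 n f F) (α : ι → GL (Fin 2) ℝ) (σ : Equiv.Perm ι) (γ : GL (Fin 2) ℝ)
    (γ' : ι → GL (Fin 2) ℝ) (hγ' : ∀ i, 0 < (γ' i).val.det)
    (hfγ' : ∀ i, f ∣[(n : ℤ) + 2] γ' i = f) (hrel : ∀ i, α i * γ = γ' i * α (σ i)) :
    period n (heckeF n α F) γ = ∑ i, polyAct n (α (σ i)) (period n F (γ' i)) := by
  have h1 : polyAct n γ (heckeF n α F (γ • I)) =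
      ∑ i, (polyAct n (α (σ i)) (F (α (σ i) • I)) - polyAct n (α (σ i)) (period n F (γ' i))) := by
    simp only [heckeF, map_sum]
    refine Finset.sum_congr rfl fun i _ => ?_
    rw [← polyAct_mul n (α i) γ (hF.1 _), ← mul_smul, hrel i, mul_smul,
      polyAct_mul n (γ' i) (α (σ i)) (hF.1 _),
      polyAct_smul_eq hF (hγ' i) (hfγ' i) (α (σ i) • I), map_sub]
  rw [period, h1, Finset.sum_sub_distrib]
  have h2 : ∑ i, polyAct n (α (σ i)) (F (α (σ i) • I)) = heckeF n α F I := by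
    simp only [heckeF]
    exact Equiv.sum_comp σ (fun i => polyAct n (α i) (F (α i • I)))
  rw [h2]
  ring

end

end Fermat.Agent.S22.Cocycle
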