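import Mathlib

set_option autoImplicit false

namespace Fermat.Agent.S22.Primitive

open Function Complex Filter Metric Set
open UpperHalfPlane hiding I
open scoped Manifold Topology Real

/-- Holomorphic on the upper half plane, `h`-periodic, zero at `i∞`. -/
structure IsEP (h : ℝ) (g : ℍ → ℂ) : Prop where
  per : Periodic (g ∘ ofComplex) h
  hol : MDifferentiable 𝓘(ℂ) 𝓘(ℂ) g
  zero : IsZeroAtImInfty g

/-- `G` is a holomorphic primitive of `g` on the upper half plane. -/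
def IsPrim (G g : ℍ → ℂ) : Prop := ∀ τ : ℍ, HasDerivAt (G ∘ ofComplex) (g τ) (τ : ℂ)

theorem IsPrim.mdifferentiable {G g : ℍ → ℂ} (h : IsPrim G g) :
    MDifferentiable 𝓘(ℂ) 𝓘(ℂ) G :=
  fun τ => UpperHalfPlane.mdifferentiableAt_iff.mpr (h τ).differentiableAt

theorem IsPrim.add {G₁ G₂ g₁ g₂ : ℍ → ℂ} (h1 : IsPrim G₁ g₁) (h2 : IsPrim G₂ g₂) :
    IsPrim (G₁ + G₂) (g₁ + g₂) := fun τ => (h1 τ).add (h2 τ)

theorem IsPrim.sub {G₁ G₂ g₁ g₂ : ℍ → ℂ} (h1 : IsPrim G₁ g₁) (h2 : IsPrim G₂ g₂) :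
    IsPrim (G₁ - G₂) (g₁ - g₂) := fun τ => (h1 τ).sub (h2 τ)

theorem IsPrim.const_mul {G g : ℍ → ℂ} (c : ℂ) (h1 : IsPrim G g) :
    IsPrim (fun τ => c * G τ) (fun τ => c * g τ) := fun τ => (h1 τ).const_mul c

theorem IsPrim.const_smul {G g : ℍ → ℂ} (c : ℂ) (h1 : IsPrim G g) :
    IsPrim (c • G) (c • g) := fun τ => (h1 τ).const_mul c

theorem isPrim_const (c : ℂ) : IsPrim (fun _ => c) 0 := fun τ =>
  hasDerivAt_const (τ : ℂ) c

/-- A primitive of `0` on the upper half plane is constant. -/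
theorem IsPrim.exists_const {G : ℍ → ℂ} (h : IsPrim G 0) : ∃ c, ∀ τ : ℍ, G τ = c := by
  have hd : DifferentiableOn ℂ (G ∘ ofComplex) upperHalfPlaneSet := fun z hz =>
    (h ⟨z, hz⟩).differentiableAt.differentiableWithinAt
  have hd' : upperHalfPlaneSet.EqOn (deriv (G ∘ ofComplex)) 0 := fun z hz =>
    (h ⟨z, hz⟩).deriv
  obtain ⟨a, ha⟩ := isOpen_upperHalfPlaneSet.exists_is_const_of_deriv_eq_zero
    (Complex.isConnected_of_upperHalfPlane subset_rfl (by grind)).isPreconnected hd hd'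
  refine ⟨a, fun τ => ?_⟩
  have := ha τ τ.2
  simpa using this

/-- Two primitives of the same function which both vanish at `i∞` agree. -/
theorem IsPrim.eq_of_isZeroAtImInfty {G₁ G₂ g : ℍ → ℂ} (h1 : IsPrim G₁ g) (h2 : IsPrim G₂ g)
    (z1 : IsZeroAtImInfty G₁) (z2 : IsZeroAtImInfty G₂) : G₁ = G₂ := by
  have h12 : IsPrim (G₁ - G₂) 0 := by simpa using h1.sub h2
  obtain ⟨c, hc⟩ := h12.exists_const
  have hz : Tendsto (G₁ - G₂) atImInfty (𝓝 (0 - 0)) := Tendsto.sub z1 z2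
  have hc' : Tendsto (G₁ - G₂) atImInfty (𝓝 c) := by
    have : (G₁ - G₂) = fun _ => c := funext hc
    rw [this]
    exact tendsto_const_nhds
  have : c = 0 - 0 := tendsto_nhds_unique hc' hz
  funext τ
  have h3 := hc τ
  simp only [Pi.sub_apply] at h3
  rw [this, sub_zero] at h3
  exact sub_eq_zero.mp h3

theorem qParam_add_period {h : ℝ} (hh : h ≠ 0) (z : ℂ) :
    Periodic.qParam h (z + h) = Periodic.qParam h z := by
  have hh' : (h : ℂ) ≠ 0 := by exact_mod_cast hh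
  simp only [Periodic.qParam]
  rw [show 2 * (π : ℂ) * I * (z + h) / h = 2 * π * I * z / h + 2 * π * I by field_simp]
  exact Complex.exp_periodic _

theorem hasDerivAt_qParam (h : ℝ) (z : ℂ) :
    HasDerivAt (Periodic.qParam h) (Periodic.qParam h z * (2 * π * I / h)) z := by
  simpa only [id_eq, mul_one] using! (((hasDerivAt_id z).const_mul _).div_const _).cexp

/-- Existence of a periodic primitive vanishing at `i∞`. -/
theorem IsEP.exists_prim {h : ℝ} (hh : 0 < h) {g : ℍ → ℂ} (hg : IsEP h g) :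
    ∃ G : ℍ → ℂ, IsEP h G ∧ IsPrim G g := by
  have hbd : IsBoundedAtImInfty g := hg.zero.boundedAtFilter
  set ψ := cuspFunction h g with hψ
  have hψd : DifferentiableOn ℂ ψ (ball 0 1) :=
    differentiableOn_cuspFunction_ball hh hg.per hg.hol hbd
  have hψ0 : ψ 0 = 0 := by
    rw [hψ, cuspFunction_apply_zero hh (analyticAt_cuspFunction_zero hh hg.per hg.hol hbd) hg.per]
    exact hg.zero.valueAtInfty_eq_zero
  have hφd : DifferentiableOn ℂ (dslope ψ 0) (ball 0 1) :=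
    (differentiableOn_dslope (ball_mem_nhds 0 one_pos)).mpr hψd
  have hφ : ∀ q : ℂ, q * dslope ψ 0 q = ψ q := fun q => by
    have := sub_smul_dslope ψ 0 q
    simpa [hψ0] using this
  have hh' : (h : ℂ) ≠ 0 := by exact_mod_cast hh.ne'
  have hex : IsExactOn (fun q => (h / (2 * π * I)) * dslope ψ 0 q) (ball 0 1) :=
    (hφd.const_mul _).isExactOn_ball
  obtain ⟨Φ, hΦ0, hΦ⟩ := hex.with_val_at 0 0
  have hq1 : ∀ τ : ℍ, Periodic.qParam h τ ∈ ball (0 : ℂ) 1 := fun τ => by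
    simpa using Periodic.norm_qParam_lt_one hh τ.im_pos
  refine ⟨fun τ => Φ (Periodic.qParam h τ), ⟨?_, ?_, ?_⟩, ?_⟩
  · intro w
    by_cases hw : 0 < w.im
    · have hw' : 0 < (w + h).im := by simpa using hw
      simp only [comp_apply, ofComplex_apply_of_im_pos hw, ofComplex_apply_of_im_pos hw']
      exact congrArg Φ (qParam_add_period hh.ne' w)
    · have hw0 : w.im ≤ 0 := not_lt.mp hw
      have hw' : (w + h).im ≤ 0 := by simpa using hw0
      simp only [comp_apply]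
      rw [ofComplex_apply_eq_of_im_nonpos hw' hw0]
  · intro τ
    rw [UpperHalfPlane.mdifferentiableAt_iff]
    have h1 : DifferentiableAt ℂ Φ (Periodic.qParam h τ) := (hΦ _ (hq1 τ)).differentiableAt
    have h2 : DifferentiableAt ℂ (fun z : ℂ => Φ (Periodic.qParam h z)) τ :=
      h1.comp (τ : ℂ) (hasDerivAt_qParam h τ).differentiableAt
    refine h2.congr_of_eventuallyEq ?_
    filter_upwards [eventuallyEq_coe_comp_ofComplex τ.im_pos] with z hz
    simp only [comp_apply, id_eq] at hz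
    simp [hz]
  · have hc : ContinuousAt Φ 0 := (hΦ 0 (mem_ball_self one_pos)).continuousAt
    have := hc.tendsto.comp (qParam_tendsto_atImInfty hh)
    rw [hΦ0] at this
    exact this
  · intro τ
    have h1 := hΦ _ (hq1 τ)
    have h2 : HasDerivAt (fun z : ℂ => Φ (Periodic.qParam h z))
        ((h / (2 * π * I)) * dslope ψ 0 (Periodic.qParam h τ) *
          (Periodic.qParam h τ * (2 * π * I / h))) τ :=
      h1.comp (τ : ℂ) (hasDerivAt_qParam h τ)
    have hval : (h / (2 * π * I)) * dslope ψ 0 (Periodic.qParam h τ) *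
          (Periodic.qParam h τ * (2 * π * I / h)) = g τ := by
      have e1 : ψ (Periodic.qParam h τ) = g τ := eq_cuspFunction τ hh.ne' hg.per
      rw [← e1, ← hφ]
      have hpi : (2 * (π : ℂ) * I) ≠ 0 := two_pi_I_ne_zero
      field_simp
    rw [hval] at h2
    refine h2.congr_of_eventuallyEq ?_
    filter_upwards [eventuallyEq_coe_comp_ofComplex τ.im_pos] with z hz
    simp only [comp_apply, id_eq] at hz
    simp [hz]


/-- Chain rule for the action of `GL(2, ℝ)⁺` on the upper half plane. -/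
theorem IsPrim.comp_smul {G g : ℍ → ℂ} (hG : IsPrim G g) {α : GL (Fin 2) ℝ}
    (hα : 0 < α.val.det) :
    IsPrim (fun τ => G (α • τ)) (fun τ => g (α • τ) * (α.val.det / denom α τ ^ 2)) := by
  intro τ
  have h1 := (hasStrictDerivAt_smul hα τ).hasDerivAt
  have h2 : HasDerivAt (G ∘ ofComplex) (g (α • τ))
      ((fun z : ℂ => ((α • ofComplex z : ℍ) : ℂ)) (τ : ℂ)) := by
    simpa [ofComplex_apply] using hG (α • τ)
  have h3 := HasDerivAt.comp (τ : ℂ) h2 h1
  refine h3.congr_of_eventuallyEq (Eventually.of_forall fun z => ?_)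
  simp [ofComplex_apply]

theorem isEP_zero (h : ℝ) : IsEP h 0 :=
  ⟨fun _ => rfl, mdifferentiable_const, zero_zeroAtFilter _⟩

theorem IsEP.add {h : ℝ} {g₁ g₂ : ℍ → ℂ} (h1 : IsEP h g₁) (h2 : IsEP h g₂) : IsEP h (g₁ + g₂) :=
  ⟨h1.per.add h2.per, h1.hol.add h2.hol, ZeroAtFilter.add h1.zero h2.zero⟩

theorem IsEP.const_smul {h : ℝ} {g : ℍ → ℂ} (c : ℂ) (h1 : IsEP h g) : IsEP h (c • g) :=
  ⟨h1.per.smul c, h1.hol.const_smul c, ZeroAtFilter.smul c h1.zero⟩

theorem IsEP.neg {h : ℝ} {g : ℍ → ℂ} (h1 : IsEP h g) : IsEP h (-g) := by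
  simpa using h1.const_smul (-1)

theorem IsEP.sub {h : ℝ} {g₁ g₂ : ℍ → ℂ} (h1 : IsEP h g₁) (h2 : IsEP h g₂) : IsEP h (g₁ - g₂) := by
  simpa [sub_eq_add_neg] using h1.add h2.neg

open Classical in
/-- A canonical primitive vanishing at `i∞` (zero when the function is not in the class). -/
noncomputable def prim (h : ℝ) (g : ℍ → ℂ) : ℍ → ℂ :=
  if H : 0 < h ∧ IsEP h g then Classical.choose (IsEP.exists_prim H.1 H.2) else 0

theorem isEP_prim {h : ℝ} (hh : 0 < h) {g : ℍ → ℂ} (hg : IsEP h g) : IsEP h (prim h g) := by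
  have H : 0 < h ∧ IsEP h g := ⟨hh, hg⟩
  rw [prim, dif_pos H]
  exact (Classical.choose_spec (IsEP.exists_prim H.1 H.2)).1

theorem isPrim_prim {h : ℝ} (hh : 0 < h) {g : ℍ → ℂ} (hg : IsEP h g) : IsPrim (prim h g) g := by
  have H : 0 < h ∧ IsEP h g := ⟨hh, hg⟩
  rw [prim, dif_pos H]
  exact (Classical.choose_spec (IsEP.exists_prim H.1 H.2)).2

theorem prim_eq {h : ℝ} (hh : 0 < h) {g G : ℍ → ℂ} (hg : IsEP h g) (hG : IsPrim G g)
    (hz : IsZeroAtImInfty G) : prim h g = G :=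
  (isPrim_prim hh hg).eq_of_isZeroAtImInfty hG (isEP_prim hh hg).zero hz

theorem prim_add {h : ℝ} (hh : 0 < h) {g₁ g₂ : ℍ → ℂ} (h1 : IsEP h g₁) (h2 : IsEP h g₂) :
    prim h (g₁ + g₂) = prim h g₁ + prim h g₂ :=
  prim_eq hh (h1.add h2) ((isPrim_prim hh h1).add (isPrim_prim hh h2))
    ((isEP_prim hh h1).add (isEP_prim hh h2)).zero

theorem prim_smul {h : ℝ} (hh : 0 < h) {g : ℍ → ℂ} (c : ℂ) (h1 : IsEP h g) :
    prim h (c • g) = c • prim h g :=
  prim_eq hh (h1.const_smul c) ((isPrim_prim hh h1).const_smul c)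
    ((isEP_prim hh h1).const_smul c).zero

/-- Iterated canonical primitives: `iterPrim h g 0 = g`, `iterPrim h g (j+1)` is the primitive of
`iterPrim h g j` vanishing at `i∞`. -/
noncomputable def iterPrim (h : ℝ) (g : ℍ → ℂ) : ℕ → ℍ → ℂ
  | 0 => g
  | j + 1 => prim h (iterPrim h g j)

@[simp] theorem iterPrim_zero (h : ℝ) (g : ℍ → ℂ) : iterPrim h g 0 = g := rfl

theorem iterPrim_succ (h : ℝ) (g : ℍ → ℂ) (j : ℕ) :
    iterPrim h g (j + 1) = prim h (iterPrim h g j) := rfl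

theorem isEP_iterPrim {h : ℝ} (hh : 0 < h) {g : ℍ → ℂ} (hg : IsEP h g) (j : ℕ) :
    IsEP h (iterPrim h g j) := by
  induction j with
  | zero => exact hg
  | succ j ih => exact isEP_prim hh ih

theorem isPrim_iterPrim {h : ℝ} (hh : 0 < h) {g : ℍ → ℂ} (hg : IsEP h g) (j : ℕ) :
    IsPrim (iterPrim h g (j + 1)) (iterPrim h g j) :=
  isPrim_prim hh (isEP_iterPrim hh hg j)

theorem iterPrim_add {h : ℝ} (hh : 0 < h) {g₁ g₂ : ℍ → ℂ} (h1 : IsEP h g₁) (h2 : IsEP h g₂)
    (j : ℕ) : iterPrim h (g₁ + g₂) j = iterPrim h g₁ j + iterPrim h g₂ j := by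
  induction j with
  | zero => rfl
  | succ j ih =>
    rw [iterPrim_succ, ih, prim_add hh (isEP_iterPrim hh h1 j) (isEP_iterPrim hh h2 j)]
    rfl

theorem iterPrim_smul {h : ℝ} (hh : 0 < h) {g : ℍ → ℂ} (c : ℂ) (h1 : IsEP h g) (j : ℕ) :
    iterPrim h (c • g) j = c • iterPrim h g j := by
  induction j with
  | zero => rfl
  | succ j ih =>
    rw [iterPrim_succ, ih, prim_smul hh c (isEP_iterPrim hh h1 j)]
    rfl

end Fermat.Agent.S22.Primitive
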