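import Fermat.Prelude.Thm_ModularForm_sturm_bound_Gamma0
import Fermat.Prelude.Thm_CongruenceSubgroup_one_mem_strictPeriods_Gamma0
import Fermat.Agent.S22.Primitive

set_option autoImplicit false

namespace Fermat.Agent.S22.CuspAux

open CongruenceSubgroup UpperHalfPlane Matrix.SpecialLinearGroup Function
open scoped MatrixGroups ModularForm Manifold

/-- (A) A holomorphic function on `ℍ` which is invariant of weight `-w ≤ 0` under `Γ₀(N)`,
bounded at all cusps and zero at `i∞` vanishes identically. -/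
theorem eq_zero_of_slash_invariant (N : ℕ) [NeZero N] (w : ℕ) (E : ℍ → ℂ)
    (hol : MDifferentiable 𝓘(ℂ) 𝓘(ℂ) E)
    (hinv : ∀ γ ∈ Gamma0 N, E ∣[-(w : ℤ)] (mapGL ℝ γ) = E)
    (hbdd : ∀ σ : SL(2, ℤ), IsBoundedAtImInfty (E ∣[-(w : ℤ)] (mapGL ℝ σ)))
    (hzero : IsZeroAtImInfty E) : E = 0 := by
  let F : ModularForm (Gamma0 N) (-(w : ℤ)) :=
    { toFun := E
      slash_action_eq' := by
        rintro γ ⟨g, hg, rfl⟩
        exact hinv g hg
      holo' := hol
      bdd_at_cusps' := by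
        intro c hc
        have hc' : IsCusp c 𝒮ℒ :=
          (Subgroup.IsArithmetic.isCusp_iff_isCusp_SL2Z _).mp hc
        rw [OnePoint.isBoundedAt_iff_forall_SL2Z hc']
        intro γ _
        exact hbdd γ }
  have hFE : (⇑F : ℍ → ℂ) = E := rfl
  have hF : F = 0 := by
    refine ModularForm.sturm_bound_Gamma0 N F fun n hn ↦ ?_
    have h0 : (-(w : ℤ) * ((Gamma0 N).index : ℤ)).toNat / 12 = 0 := by
      have : -(w : ℤ) * ((Gamma0 N).index : ℤ) ≤ 0 :=
        mul_nonpos_of_nonpos_of_nonneg (by simp) (Int.natCast_nonneg _)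
      rw [Int.toNat_of_nonpos this]
    rw [h0] at hn
    obtain rfl : n = 0 := Nat.le_zero.mp hn
    have h1 : (qExpansion 1 (⇑F)).coeff 0 = cuspFunction 1 E 0 := by
      rw [hFE]
      simp [qExpansion_coeff]
    rw [h1]
    exact hzero.cuspFunction_apply_zero one_pos
  rw [← hFE, hF]
  rfl

open ConjAct Pointwise in
/-- `N` is a strict period of every `SL(2, ℤ)`-conjugate of `Γ₀(N)`. -/
theorem natCast_mem_strictPeriods_conj (N : ℕ) (γ : SL(2, ℤ)) :
    (N : ℝ) ∈ (toConjAct (mapGL ℝ γ) • (Gamma0 N : Subgroup (GL (Fin 2) ℝ))).strictPeriods := by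
  have hT : ModularGroup.T ^ (N : ℤ) ∈ Gamma N := ModularGroup_T_pow_mem_Gamma N N dvd_rfl
  have hconj : γ⁻¹ * ModularGroup.T ^ (N : ℤ) * γ ∈ Gamma0 N := by
    have h1 : γ⁻¹ * ModularGroup.T ^ (N : ℤ) * γ ∈ Gamma N := by
      simpa using (Gamma_normal N).conj_mem _ hT γ⁻¹
    rw [Gamma_mem] at h1
    rw [Gamma0_mem]
    exact h1.2.2.1
  have hU0 : ∀ m : ℤ, Matrix.GeneralLinearGroup.upperRightHom ((m : ℝ)) =
      mapGL ℝ (ModularGroup.T ^ m) := by
    intro m
    simp only [Units.ext_iff, mapGL_coe_matrix, map_apply_coe]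
    ext i j
    fin_cases i <;> fin_cases j <;> simp [ModularGroup.coe_T_zpow]
  have hU : Matrix.GeneralLinearGroup.upperRightHom ((N : ℝ)) =
      mapGL ℝ (ModularGroup.T ^ (N : ℤ)) := by
    have := hU0 (N : ℤ)
    rwa [Int.cast_natCast] at this
  rw [Subgroup.mem_strictPeriods_iff, Subgroup.mem_pointwise_smul_iff_inv_smul_mem, ← toConjAct_inv,
    toConjAct_smul, inv_inv, hU, ← map_inv, ← map_mul, ← map_mul]
  exact Subgroup.mem_map_of_mem _ hconj

open ConjAct Pointwise in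
/-- (B) `SL(2, ℤ)`-translates of cusp forms on `Γ₀(N)` are holomorphic, `N`-periodic and
zero at `i∞`. -/
theorem isEP_slash (N : ℕ) [NeZero N] {k : ℤ} (f : CuspForm (Gamma0 N) k) (σ : SL(2, ℤ)) :
    Primitive.IsEP (N : ℝ) (⇑f ∣[k] (mapGL ℝ σ)) := by
  have hN : (0 : ℝ) < N := by exact_mod_cast Nat.pos_of_ne_zero (NeZero.ne N)
  have hper : (N : ℝ) ∈ (toConjAct (mapGL ℝ σ)⁻¹ •
      (Gamma0 N : Subgroup (GL (Fin 2) ℝ))).strictPeriods := by
    simpa using natCast_mem_strictPeriods_conj N σ⁻¹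
  have : Fact (IsCusp OnePoint.infty (toConjAct (mapGL ℝ σ)⁻¹ •
      (Gamma0 N : Subgroup (GL (Fin 2) ℝ)))) := ⟨Subgroup.isCusp_of_mem_strictPeriods hN hper⟩
  refine ⟨?_, ?_, ?_⟩
  · exact SlashInvariantFormClass.periodic_comp_ofComplex (CuspForm.translate f (mapGL ℝ σ)) hper
  · exact CuspFormClass.holo (CuspForm.translate f (mapGL ℝ σ))
  · exact CuspFormClass.zero_at_infty (CuspForm.translate f (mapGL ℝ σ))

/-- Cusp forms on `Γ₀(N)` themselves are holomorphic, `1`-periodic and zero at `i∞`. -/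
theorem isEP_one (N : ℕ) [NeZero N] {k : ℤ} (f : CuspForm (Gamma0 N) k) :
    Primitive.IsEP (1 : ℝ) (⇑f) := by
  have hper := one_mem_strictPeriods_Gamma0 N
  have : Fact (IsCusp OnePoint.infty (Gamma0 N : Subgroup (GL (Fin 2) ℝ))) :=
    ⟨Subgroup.isCusp_of_mem_strictPeriods one_pos hper⟩
  exact ⟨SlashInvariantFormClass.periodic_comp_ofComplex f hper, CuspFormClass.holo f,
    CuspFormClass.zero_at_infty f⟩

open ConjAct Pointwise in
/-- (C1) If `E` is invariant of weight `k` under `Γ₀(N)`, every `SL(2, ℤ)`-translate of `E`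
is `N`-periodic. -/
theorem slash_vadd_eq (N : ℕ) (k : ℤ) (E : ℍ → ℂ)
    (hinv : ∀ γ ∈ Gamma0 N, E ∣[k] (mapGL ℝ γ) = E) (σ : SL(2, ℤ)) (z : ℍ) :
    (E ∣[k] (mapGL ℝ σ)) ((N : ℝ) +ᵥ z) = (E ∣[k] (mapGL ℝ σ)) z := by
  let S : SlashInvariantForm (Gamma0 N) k :=
    { toFun := E
      slash_action_eq' := by
        rintro γ ⟨g, hg, rfl⟩
        exact hinv g hg }
  have hper : (N : ℝ) ∈ (toConjAct (mapGL ℝ σ)⁻¹ •
      (Gamma0 N : Subgroup (GL (Fin 2) ℝ))).strictPeriods := by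
    simpa using natCast_mem_strictPeriods_conj N σ⁻¹
  exact SlashInvariantForm.vAdd_apply_of_mem_strictPeriods
    (SlashInvariantForm.translate S (mapGL ℝ σ)) z hper

open Polynomial in
/-- (C2) A polynomial which is `h`-periodic on the upper half plane (`h ≠ 0` real) is constant. -/
theorem polynomial_eq_C_of_periodic (P : ℂ[X]) {h : ℝ} (hh : h ≠ 0)
    (hP : ∀ z : ℍ, P.eval ((z : ℂ) + h) = P.eval (z : ℂ)) : P = C (P.coeff 0) := by
  have hcomp : P.comp (X + C (h : ℂ)) = P := by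
    refine Polynomial.eq_of_infinite_eval_eq _ _ ?_
    have hinf : Set.Infinite (Set.range fun m : ℕ ↦ ((m : ℂ) + Complex.I)) := by
      refine Set.infinite_range_of_injective fun a b hab ↦ ?_
      simpa using hab
    refine hinf.mono ?_
    rintro _ ⟨m, rfl⟩
    have hm : 0 < ((m : ℂ) + Complex.I).im := by simp
    simpa using hP ⟨_, hm⟩
  have hiter : ∀ m : ℕ, P.eval ((m : ℂ) * h) = P.eval 0 := by
    intro m
    induction m with
    | zero => simp
    | succ m ih =>
      rw [← ih]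
      have h1 : P.eval (((m + 1 : ℕ) : ℂ) * h) = (P.comp (X + C (h : ℂ))).eval ((m : ℂ) * h) := by
        rw [eval_comp]
        congr 1
        simp only [eval_add, eval_X, eval_C]
        push_cast
        ring
      rw [h1, hcomp]
  have hroot : P - C (P.eval 0) = 0 := by
    refine Polynomial.eq_zero_of_infinite_isRoot _ ?_
    have hinf : Set.Infinite (Set.range fun m : ℕ ↦ ((m : ℂ) * (h : ℂ))) := by
      refine Set.infinite_range_of_injective fun a b hab ↦ ?_
      have hh' : (h : ℂ) ≠ 0 := by exact_mod_cast hh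
      have := mul_right_cancel₀ hh' hab
      exact_mod_cast this
    refine hinf.mono ?_
    rintro _ ⟨m, rfl⟩
    simp [hiter m]
  have h0 : P = C (P.eval 0) := sub_eq_zero.mp hroot
  rw [← coeff_zero_eq_eval_zero] at h0
  exact h0

end Fermat.Agent.S22.CuspAux
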