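import Mathlib
import Fermat.Agent.S22.Primitive
import Fermat.Agent.S22.EichlerDefs

set_option autoImplicit false

noncomputable section

namespace Fermat.Agent.S22.EichlerExist

open Complex Filter Function Set Topology Asymptotics Polynomial
open UpperHalfPlane hiding I
open scoped Real Manifold
open Fermat.Agent.S22.Primitive Fermat.Agent.S22.EichlerDefs

/-! ### Coefficients of `(C a - X) ^ n` -/

theorem coeff_C_sub_X_pow (a : ℂ) (n j : ℕ) :
    ((C a - X : ℂ[X]) ^ n).coeff j = (-1) ^ n * ((-a) ^ (n - j) * (n.choose j : ℂ)) := by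
  have h : (C a - X : ℂ[X]) = C (-1) * (X + C (-a)) := by
    simp only [map_neg, map_one]
    ring
  rw [h, mul_pow, ← C_pow, coeff_C_mul, coeff_X_add_C_pow]

theorem hasDerivAt_coeff_C_sub_X_pow (a : ℂ) (n j : ℕ) :
    HasDerivAt (fun u : ℂ => ((C u - X : ℂ[X]) ^ (n + 1)).coeff j)
      (((n : ℂ) + 1) * ((C a - X : ℂ[X]) ^ n).coeff j) a := by
  simp only [coeff_C_sub_X_pow]
  have h1 : HasDerivAt (fun u : ℂ => (-u) ^ (n + 1 - j))
      (((n + 1 - j : ℕ) : ℂ) * (-a) ^ (n + 1 - j - 1) * (-1)) a :=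
    (hasDerivAt_neg a).fun_pow (n + 1 - j)
  have h2 := (h1.mul_const ((n + 1).choose j : ℂ)).const_mul ((-1 : ℂ) ^ (n + 1))
  refine h2.congr_deriv ?_
  have e1 : n + 1 - j - 1 = n - j := by omega
  have e2 : (((n + 1 - j : ℕ) : ℂ)) * ((n + 1).choose j : ℂ) = ((n : ℂ) + 1) * (n.choose j : ℂ) := by
    have h3 := congrArg (fun m : ℕ => (m : ℂ)) (Nat.choose_mul_succ_eq n j)
    simp only [Nat.cast_mul, Nat.cast_add, Nat.cast_one] at h3
    rw [mul_comm, ← h3, mul_comm]
  rw [e1, pow_succ]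
  linear_combination ((-1 : ℂ) ^ n * (-a) ^ (n - j)) * e2

/-! ### Decay along vertical lines -/

/-- The vertical path `y ↦ x + i y`. -/
def vpath (x : ℝ) (y : ℝ) : ℂ := (x : ℂ) + (y : ℂ) * I

theorem vpath_im (x y : ℝ) : (vpath x y).im = y := by simp [vpath]

theorem tendsto_vpath (x : ℝ) : Tendsto (vpath x) atTop (comap Complex.im atTop) := by
  rw [tendsto_comap_iff]
  have : Complex.im ∘ vpath x = id := by
    funext y
    simp [vpath]
  rw [this]
  exact tendsto_id

theorem isBigO_vpath {h : ℝ} (hh : 0 < h) {g : ℍ → ℂ} (hg : IsEP h g) (x : ℝ) :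
    (fun y : ℝ => g (ofComplex (vpath x y))) =O[atTop]
      (fun y : ℝ => Real.exp (-(2 * π / h) * y)) := by
  have h1 : (g ∘ ofComplex) =O[comap Complex.im atTop]
      fun z : ℂ => Real.exp (-2 * π * z.im / h) := by
    refine Periodic.exp_decay_of_zero_at_inf hh hg.per ?_ (hg.zero.comp tendsto_comap_im_ofComplex)
    refine eventually_of_mem (preimage_mem_comap (Ioi_mem_atTop 0)) fun z hz => ?_
    exact UpperHalfPlane.mdifferentiableAt_iff.mp (hg.hol ⟨z, hz⟩)
  have h2 := h1.comp_tendsto (tendsto_vpath x)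
  refine h2.congr_right fun y => ?_
  simp only [comp_apply, vpath_im]
  congr 1
  ring

theorem isBigO_pow_vpath (x : ℝ) (m : ℕ) :
    (fun y : ℝ => (vpath x y) ^ m) =O[atTop] (fun y : ℝ => y ^ m) := by
  have h1 : (fun y : ℝ => vpath x y) =O[atTop] (fun y : ℝ => y) := by
    refine IsBigO.of_bound (‖(x : ℂ)‖ + 1) ?_
    filter_upwards [eventually_ge_atTop (1 : ℝ)] with y hy
    have hy0 : (0 : ℝ) ≤ y := le_trans zero_le_one hy
    have e1 : ‖vpath x y‖ ≤ ‖(x : ℂ)‖ + y := by
      refine (norm_add_le _ _).trans ?_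
      rw [norm_mul, Complex.norm_I, mul_one, Complex.norm_real, Complex.norm_real,
        Real.norm_of_nonneg hy0]
    rw [Real.norm_of_nonneg hy0]
    have e2 : ‖(x : ℂ)‖ ≤ ‖(x : ℂ)‖ * y := le_mul_of_one_le_right (norm_nonneg _) hy
    nlinarith
  simpa using h1.pow m

theorem tendsto_pow_mul_exp_neg (m : ℕ) {b : ℝ} (hb : 0 < b) :
    Tendsto (fun y : ℝ => y ^ m * Real.exp (-b * y)) atTop (𝓝 0) := by
  have := tendsto_rpow_mul_exp_neg_mul_atTop_nhds_zero (m : ℝ) b hb
  refine this.congr' ?_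
  filter_upwards [eventually_ge_atTop (0 : ℝ)] with y hy
  rw [Real.rpow_natCast]

theorem tendsto_mul_pow_vpath {h : ℝ} (hh : 0 < h) {g : ℍ → ℂ} (hg : IsEP h g) (x : ℝ) (m : ℕ) :
    Tendsto (fun y : ℝ => g (ofComplex (vpath x y)) * (vpath x y) ^ m) atTop (𝓝 0) := by
  have h1 := (isBigO_vpath hh hg x).mul (isBigO_pow_vpath x m)
  have hb : 0 < 2 * π / h := by positivity
  have h2 := tendsto_pow_mul_exp_neg m hb
  refine h1.trans_tendsto ?_
  refine h2.congr fun y => ?_
  ring

theorem hasDerivAt_coe_ofComplex (τ : ℍ) :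
    HasDerivAt (fun u : ℂ => ((ofComplex u : ℍ) : ℂ)) 1 (τ : ℂ) := by
  refine (hasDerivAt_id (τ : ℂ)).congr_of_eventuallyEq ?_
  filter_upwards [eventuallyEq_coe_comp_ofComplex τ.im_pos] with u hu
  simpa using hu

theorem eq_zero_of_isPrim_zero {G g : ℍ → ℂ} (hp : IsPrim G g) (hG : ∀ τ, G τ = 0) (τ : ℍ) :
    g τ = 0 := by
  have h1 := hp τ
  have h2 : (G ∘ ofComplex) = fun _ => (0 : ℂ) := funext fun u => hG _
  rw [h2] at h1
  exact h1.unique (hasDerivAt_const _ _)

/-! ### Existence of Eichler integrals -/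

/-- Every holomorphic periodic function vanishing at `i∞` has an Eichler integral of every
degree `n`: a polynomial valued `F` with `∂F/∂τ = f(τ) (τ - X)^n` vanishing along vertical lines,
whose diagonal `τ ↦ (F τ)(τ)` is again holomorphic, periodic and vanishing at `i∞`, and vanishes
identically only if `f` does. -/
theorem exists_eichler (n : ℕ) {h : ℝ} (hh : 0 < h) {f : ℍ → ℂ} (hf : IsEP h f) :
    ∃ F : ℍ → ℂ[X], IsE1 n f F ∧ IsE2 F ∧ ∃ g : ℍ → ℂ, IsEP h g ∧
      (∀ τ : ℍ, (F τ).eval (τ : ℂ) = g τ) ∧ ((∀ τ, g τ = 0) → ∀ τ, f τ = 0) := by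
  induction n generalizing f with
  | zero =>
    obtain ⟨f₁, hf₁, hp⟩ := hf.exists_prim hh
    refine ⟨fun τ => C (f₁ τ), ⟨fun τ => by simp, fun j τ => ?_⟩, ?_, f₁, hf₁,
      fun τ => by simp, fun hg τ => eq_zero_of_isPrim_zero hp hg τ⟩
    · simp only [pow_zero, coeff_one, coeff_C]
      by_cases hj : j = 0
      · subst hj
        have h0 : HasDerivAt (fun z : ℂ => f₁ (ofComplex z)) (f τ) (τ : ℂ) := hp τ
        simpa using h0
      · simp only [if_neg hj, mul_zero]
        exact hasDerivAt_const _ _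
    · intro x j
      simp only [coeff_C]
      by_cases hj : j = 0
      · simp only [if_pos hj]
        have := tendsto_mul_pow_vpath hh hf₁ x 0
        simpa [vpath] using this
      · simp only [if_neg hj]
        exact tendsto_const_nhds
  | succ n ih =>
    obtain ⟨f₁, hf₁, hp⟩ := hf.exists_prim hh
    obtain ⟨F', hE1, hE2, g', hg', hdiag, hzero⟩ := ih hf₁
    refine ⟨fun τ => C (f₁ τ) * (C (τ : ℂ) - X) ^ (n + 1) - C ((n : ℂ) + 1) * F' τ,
      ⟨fun τ => ?_, fun j τ => ?_⟩, ?_, fun τ => -((n : ℂ) + 1) * g' τ, ?_, fun τ => ?_,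
      fun hg τ => ?_⟩
    · -- degree bound
      refine (natDegree_sub_le _ _).trans (max_le ?_ ?_)
      · refine (natDegree_C_mul_le _ _).trans ?_
        refine (natDegree_pow_le).trans ?_
        have : (C (τ : ℂ) - X : ℂ[X]).natDegree ≤ 1 := by
          refine (natDegree_sub_le _ _).trans ?_
          simp
        calc (n + 1) * (C (τ : ℂ) - X : ℂ[X]).natDegree ≤ (n + 1) * 1 :=
              Nat.mul_le_mul_left _ this
          _ = n + 1 := mul_one _
      · exact (natDegree_C_mul_le _ _).trans ((hE1.1 τ).trans (Nat.le_succ n))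
    · -- coefficientwise derivative
      have h1 : HasDerivAt (fun u : ℂ => f₁ (ofComplex u)) (f τ) (τ : ℂ) := hp τ
      have h2 : HasDerivAt (fun u : ℂ => ((C ((ofComplex u : ℍ) : ℂ) - X : ℂ[X]) ^ (n + 1)).coeff j)
          (((n : ℂ) + 1) * ((C (τ : ℂ) - X : ℂ[X]) ^ n).coeff j * 1) (τ : ℂ) := by
        have h3 := hasDerivAt_coeff_C_sub_X_pow (τ : ℂ) n j
        have h4 : HasDerivAt (fun u : ℂ => ((C u - X : ℂ[X]) ^ (n + 1)).coeff j)
            (((n : ℂ) + 1) * ((C (τ : ℂ) - X : ℂ[X]) ^ n).coeff j)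
            ((fun u : ℂ => ((ofComplex u : ℍ) : ℂ)) (τ : ℂ)) := by
          simpa [ofComplex_apply] using h3
        exact HasDerivAt.comp (τ : ℂ) h4 (hasDerivAt_coe_ofComplex τ)
      have h5 := hE1.2 j τ
      have h6 := (h1.mul h2).sub (h5.const_mul ((n : ℂ) + 1))
      have h7 : (fun z : ℂ => ((fun τ : ℍ => C (f₁ τ) * (C (τ : ℂ) - X) ^ (n + 1) -
            C ((n : ℂ) + 1) * F' τ) (ofComplex z)).coeff j) =
          (fun u : ℂ => f₁ (ofComplex u) *
            ((C ((ofComplex u : ℍ) : ℂ) - X : ℂ[X]) ^ (n + 1)).coeff j -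
            ((n : ℂ) + 1) * (F' (ofComplex u)).coeff j) := by
        funext u
        simp only [coeff_sub, coeff_C_mul]
      rw [h7]
      refine h6.congr_deriv ?_
      simp only [ofComplex_apply]
      ring
    · -- decay
      intro x j
      have h1 := (tendsto_mul_pow_vpath hh hf₁ x (n + 1 - j)).const_mul
        ((-1 : ℂ) ^ (n + 1) * ((-1) ^ (n + 1 - j) * ((n + 1).choose j : ℂ)))
      have h2 := (hE2 x j).const_mul ((n : ℂ) + 1)
      have h3 := h1.sub h2
      simp only [mul_zero, sub_zero] at h3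
      refine h3.congr' ?_
      filter_upwards [eventually_gt_atTop (0 : ℝ)] with y hy
      have hy' : 0 < (vpath x y).im := by rw [vpath_im]; exact hy
      have e1 : ofComplex ((x : ℂ) + (y : ℂ) * I) = ofComplex (vpath x y) := rfl
      simp only [coeff_sub, coeff_C_mul, coeff_C_sub_X_pow, e1]
      rw [ofComplex_apply_of_im_pos hy']
      simp only [neg_pow (vpath x y)]
      ring
    · exact hg'.const_smul (-((n : ℂ) + 1))
    · simp only [eval_sub, eval_mul, eval_C, eval_pow, eval_X, sub_self]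
      rw [hdiag τ, zero_pow (Nat.succ_ne_zero n)]
      ring
    · have hn : ((n : ℂ) + 1) ≠ 0 := by exact_mod_cast Nat.succ_ne_zero n
      have hg'0 : ∀ τ, g' τ = 0 := fun τ => by
        rcases mul_eq_zero.mp (hg τ) with h0 | h0
        · exact absurd (neg_eq_zero.mp h0) hn
        · exact h0
      exact eq_zero_of_isPrim_zero hp (hzero hg'0) τ

end Fermat.Agent.S22.EichlerExist
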