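import Mathlib

set_option autoImplicit false

namespace Fermat.Agent.S22.Endgame

theorem comp_mem_of_mem_adjoin {V : Type*} [AddCommGroup V] [Module ℂ V]
    (s : Set (Module.End ℂ V)) (L : Submodule ℤ (V →ₗ[ℂ] ℂ))
    (h : ∀ t ∈ s, ∀ l ∈ L, l ∘ₗ t ∈ L) :
    ∀ t ∈ Algebra.adjoin ℤ s, ∀ l ∈ L, l ∘ₗ t ∈ L := by
  intro t ht
  refine Algebra.adjoin_induction (p := fun t _ => ∀ l ∈ L, l ∘ₗ t ∈ L) ?_ ?_ ?_ ?_ ht
  · intro x hx l hl
    exact h x hx l hl
  · intro r l hl
    have : l ∘ₗ (algebraMap ℤ (Module.End ℂ V) r) = r • l := by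
      ext v
      simp [Algebra.algebraMap_eq_smul_one]
    rw [this]
    exact L.smul_mem r hl
  · intro x y _ _ hx hy l hl
    rw [LinearMap.comp_add]
    exact L.add_mem (hx l hl) (hy l hl)
  · intro x y _ _ hx hy l hl
    have : l ∘ₗ (x * y) = (l ∘ₗ x) ∘ₗ y := by
      ext v
      simp
    rw [this]
    exact hy _ (hx l hl)

theorem finite_of_dual_lattice {V : Type*} [AddCommGroup V] [Module ℂ V]
    (A : Subalgebra ℤ (Module.End ℂ V)) (L : Submodule ℤ (V →ₗ[ℂ] ℂ)) (hfg : L.FG)
    (hsep : ∀ v : V, (∀ l ∈ L, l v = 0) → v = 0)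
    (hstab : ∀ t ∈ A, ∀ l ∈ L, l ∘ₗ t ∈ L) : Module.Finite ℤ A := by
  haveI : Module.Finite ℤ L := Module.Finite.iff_fg.mpr hfg
  haveI : IsAddTorsionFree (V →ₗ[ℂ] ℂ) := .of_isTorsionFree ℂ _
  haveI : Module.Free ℤ L := Module.free_of_finite_type_torsion_free'
  let Φ : A →ₗ[ℤ] (L →ₗ[ℤ] L) :=
    { toFun := fun t =>
        { toFun := fun l => ⟨(l : V →ₗ[ℂ] ℂ) ∘ₗ (t : Module.End ℂ V), hstab t t.2 l l.2⟩
          map_add' := fun l l' => by
            apply Subtype.ext
            simp [LinearMap.add_comp]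
          map_smul' := fun r l => by
            apply Subtype.ext
            simp [LinearMap.smul_comp] }
      map_add' := fun t t' => by
        apply LinearMap.ext
        intro l
        apply Subtype.ext
        simp [LinearMap.comp_add]
      map_smul' := fun r t => by
        apply LinearMap.ext
        intro l
        apply Subtype.ext
        apply LinearMap.ext
        intro v
        simp }
  have hinj : Function.Injective Φ := by
    rw [injective_iff_map_eq_zero]
    intro t ht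
    apply Subtype.ext
    apply LinearMap.ext
    intro v
    apply hsep
    intro l hl
    have h1 := congrArg (fun g : L →ₗ[ℤ] L => ((g ⟨l, hl⟩ : L) : V →ₗ[ℂ] ℂ) v) ht
    simpa [Φ] using h1
  exact Module.Finite.of_injective Φ hinj

end Fermat.Agent.S22.Endgame
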