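import Mathlib
import Fermat.Agent.S22.PolyAct
import Fermat.Agent.S22.GammaFG

set_option autoImplicit false

namespace Fermat.Agent.S22.LatticeAbs

open Polynomial
open scoped MatrixGroups
open Fermat.Agent.S22.PolyAct Matrix.SpecialLinearGroup

noncomputable section

variable {V : Type*} [AddCommGroup V] [Module ℂ V]

/-- The lattice of period functionals attached to a family `per γ : V →ₗ[ℂ] ℂ[X]`. -/
def lat (N : ℕ) (n : ℕ) (per : SL(2, ℤ) → V →ₗ[ℂ] ℂ[X]) : Submodule ℤ (V →ₗ[ℂ] ℂ) :=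
  Submodule.span ℤ {l | ∃ γ ∈ CongruenceSubgroup.Gamma0 N, ∃ m ≤ n, l = (lcoeff ℂ m) ∘ₗ per γ}

theorem mapGL_entry_int (δ : SL(2, ℤ)) (i j : Fin 2) :
    ∃ z : ℤ, ((mapGL ℝ δ) i j : ℝ) = z :=
  ⟨δ i j, by simp [mapGL]⟩

theorem mem_lat {N n : ℕ} {per : SL(2, ℤ) → V →ₗ[ℂ] ℂ[X]} {γ : SL(2, ℤ)}
    (hγ : γ ∈ CongruenceSubgroup.Gamma0 N) {m : ℕ} (hm : m ≤ n) :
    (lcoeff ℂ m) ∘ₗ per γ ∈ lat N n per :=
  Submodule.subset_span ⟨γ, hγ, m, hm, rfl⟩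

/-- coefficients of `polyAct n g ∘ φ` are integer combinations of coefficients of `φ`
when `g` has integer entries. -/
theorem lcoeff_polyAct_comp_mem (n : ℕ) (g : GL (Fin 2) ℝ)
    (hg : ∀ i j, ∃ z : ℤ, (g i j : ℝ) = z) (L : Submodule ℤ (V →ₗ[ℂ] ℂ))
    (φ : V →ₗ[ℂ] ℂ[X]) (hφ : ∀ j, j ≤ n → (lcoeff ℂ j) ∘ₗ φ ∈ L) (m : ℕ) :
    (lcoeff ℂ m) ∘ₗ (polyAct n g) ∘ₗ φ ∈ L := by
  obtain ⟨c, hc⟩ := polyAct_coeff_int n g hg
  have e : (lcoeff ℂ m) ∘ₗ (polyAct n g) ∘ₗ φ =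
      ∑ j ∈ Finset.range (n + 1), (c m j) • ((lcoeff ℂ j) ∘ₗ φ) := by
    ext v
    simp only [LinearMap.comp_apply, lcoeff_apply, hc, LinearMap.sum_apply, LinearMap.smul_apply,
      zsmul_eq_mul]
  rw [e]
  refine Submodule.sum_mem _ fun j hj => ?_
  exact L.smul_mem _ (hφ j (Nat.lt_succ_iff.mp (Finset.mem_range.mp hj)))

theorem per_one {N n : ℕ} {per : SL(2, ℤ) → V →ₗ[ℂ] ℂ[X]}
    (hdeg : ∀ γ ∈ CongruenceSubgroup.Gamma0 N, ∀ v, (per γ v).natDegree ≤ n)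
    (hcoc : ∀ γ ∈ CongruenceSubgroup.Gamma0 N, ∀ δ ∈ CongruenceSubgroup.Gamma0 N, ∀ v,
      per (γ * δ) v = per δ v + polyAct n (mapGL ℝ δ) (per γ v)) :
    per 1 = 0 := by
  ext1 v
  have h1 := Subgroup.one_mem (CongruenceSubgroup.Gamma0 N)
  have h := hcoc 1 h1 1 h1 v
  rw [mul_one, map_one, polyAct_one n (hdeg 1 h1 v)] at h
  have : per 1 v = 0 := by
    have h' : per 1 v + per 1 v = per 1 v + 0 := by rw [add_zero]; exact h.symm
    exact add_left_cancel h'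
  simpa using this

theorem per_inv {N n : ℕ} {per : SL(2, ℤ) → V →ₗ[ℂ] ℂ[X]}
    (hdeg : ∀ γ ∈ CongruenceSubgroup.Gamma0 N, ∀ v, (per γ v).natDegree ≤ n)
    (hcoc : ∀ γ ∈ CongruenceSubgroup.Gamma0 N, ∀ δ ∈ CongruenceSubgroup.Gamma0 N, ∀ v,
      per (γ * δ) v = per δ v + polyAct n (mapGL ℝ δ) (per γ v))
    {γ : SL(2, ℤ)} (hγ : γ ∈ CongruenceSubgroup.Gamma0 N) :
    per γ⁻¹ = -((polyAct n (mapGL ℝ γ⁻¹)) ∘ₗ per γ) := by
  ext1 v
  have h := hcoc γ hγ γ⁻¹ (Subgroup.inv_mem _ hγ) v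
  rw [mul_inv_cancel, per_one hdeg hcoc] at h
  simp only [LinearMap.zero_apply] at h
  simp only [LinearMap.neg_apply, LinearMap.comp_apply]
  exact eq_neg_of_add_eq_zero_left h.symm

/-- Finite generation of the period lattice from the cocycle relation. -/
theorem lat_fg (N : ℕ) [NeZero N] (n : ℕ) (per : SL(2, ℤ) → V →ₗ[ℂ] ℂ[X])
    (hdeg : ∀ γ ∈ CongruenceSubgroup.Gamma0 N, ∀ v, (per γ v).natDegree ≤ n)
    (hcoc : ∀ γ ∈ CongruenceSubgroup.Gamma0 N, ∀ δ ∈ CongruenceSubgroup.Gamma0 N, ∀ v,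
      per (γ * δ) v = per δ v + polyAct n (mapGL ℝ δ) (per γ v)) :
    (lat N n per).FG := by
  classical
  obtain ⟨S, hS, hind⟩ := GammaFG.gamma0_induction N
  let G : Finset (V →ₗ[ℂ] ℂ) :=
    (S ×ˢ Finset.range (n + 1)).image fun sm => (lcoeff ℂ sm.2) ∘ₗ per sm.1
  let L₀ : Submodule ℤ (V →ₗ[ℂ] ℂ) := Submodule.span ℤ (G : Set (V →ₗ[ℂ] ℂ))
  have hL₀ : L₀.FG := Submodule.fg_span G.finite_toSet
  have key : ∀ γ ∈ CongruenceSubgroup.Gamma0 N, ∀ m, m ≤ n → (lcoeff ℂ m) ∘ₗ per γ ∈ L₀ := by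
    refine hind (fun γ => ∀ m, m ≤ n → (lcoeff ℂ m) ∘ₗ per γ ∈ L₀) ?_ ?_ ?_ ?_
    · intro m _
      rw [per_one hdeg hcoc]
      simp
    · intro g hg m hm
      refine Submodule.subset_span ?_
      simp only [G, Finset.coe_image, Set.mem_image, Finset.mem_coe, Finset.mem_product,
        Finset.mem_range]
      exact ⟨(g, m), ⟨hg, Nat.lt_succ_of_le hm⟩, rfl⟩
    · intro g h hg hh Pg Ph m hm
      have e : (lcoeff ℂ m) ∘ₗ per (g * h) =
          (lcoeff ℂ m) ∘ₗ per h + (lcoeff ℂ m) ∘ₗ (polyAct n (mapGL ℝ h)) ∘ₗ per g := by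
        ext v
        simp only [LinearMap.comp_apply, LinearMap.add_apply, hcoc g hg h hh v, map_add]
      rw [e]
      exact L₀.add_mem (Ph m hm)
        (lcoeff_polyAct_comp_mem n _ (mapGL_entry_int h) L₀ (per g) Pg m)
    · intro g hg Pg m _
      rw [per_inv hdeg hcoc hg, LinearMap.comp_neg]
      exact L₀.neg_mem (lcoeff_polyAct_comp_mem n _ (mapGL_entry_int g⁻¹) L₀ (per g) Pg m)
  have hle : lat N n per ≤ L₀ := by
    refine Submodule.span_le.mpr ?_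
    rintro l ⟨γ, hγ, m, hm, rfl⟩
    exact key γ hγ m hm
  have hge : L₀ ≤ lat N n per := by
    refine Submodule.span_le.mpr ?_
    intro l hl
    simp only [G, Finset.coe_image, Set.mem_image, Finset.mem_coe, Finset.mem_product,
      Finset.mem_range] at hl
    obtain ⟨⟨s, m⟩, ⟨hs, hm⟩, rfl⟩ := hl
    exact mem_lat (hS s hs) (Nat.lt_succ_iff.mp hm)
  rw [le_antisymm hle hge]
  exact hL₀

/-- Stability of the period lattice under an operator satisfying a Hecke-type relation. -/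
theorem lat_comp_mem (N : ℕ) (n : ℕ) (per : SL(2, ℤ) → V →ₗ[ℂ] ℂ[X])
    (T : Module.End ℂ V) {ι : Type*} [Fintype ι] (α : ι → GL (Fin 2) ℝ)
    (hα : ∀ i a b, ∃ z : ℤ, (α i a b : ℝ) = z)
    (hrel : ∀ γ ∈ CongruenceSubgroup.Gamma0 N, ∃ (σ : Equiv.Perm ι) (γ' : ι → SL(2, ℤ)),
      (∀ i, γ' i ∈ CongruenceSubgroup.Gamma0 N) ∧
      ∀ v, per γ (T v) = ∑ i, polyAct n (α (σ i)) (per (γ' i) v)) :
    ∀ l ∈ lat N n per, l ∘ₗ T ∈ lat N n per := by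
  intro l hl
  induction hl using Submodule.span_induction with
  | mem l hl =>
    obtain ⟨γ, hγ, m, hm, rfl⟩ := hl
    obtain ⟨σ, γ', hγ', h⟩ := hrel γ hγ
    have e : ((lcoeff ℂ m) ∘ₗ per γ) ∘ₗ T =
        ∑ i, (lcoeff ℂ m) ∘ₗ (polyAct n (α (σ i))) ∘ₗ per (γ' i) := by
      ext v
      simp only [LinearMap.comp_apply, h v, map_sum, LinearMap.sum_apply]
    rw [e]
    refine Submodule.sum_mem _ fun i _ => ?_
    exact lcoeff_polyAct_comp_mem n _ (hα (σ i)) _ (per (γ' i))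
      (fun j hj => mem_lat (hγ' i) hj) m
  | zero => simp
  | add x y _ _ hx hy =>
    rw [LinearMap.add_comp]
    exact Submodule.add_mem _ hx hy
  | smul a x _ hx =>
    rw [LinearMap.smul_comp]
    exact Submodule.smul_mem _ a hx

/-- The period lattice separates points as soon as the periods do. -/
theorem lat_sep (N : ℕ) (n : ℕ) (per : SL(2, ℤ) → V →ₗ[ℂ] ℂ[X])
    (hdeg : ∀ γ ∈ CongruenceSubgroup.Gamma0 N, ∀ v, (per γ v).natDegree ≤ n)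
    (hsep : ∀ v, (∀ γ ∈ CongruenceSubgroup.Gamma0 N, per γ v = 0) → v = 0) :
    ∀ v, (∀ l ∈ lat N n per, l v = 0) → v = 0 := by
  intro v hv
  refine hsep v fun γ hγ => ?_
  ext m
  rw [coeff_zero]
  by_cases hm : m ≤ n
  · have := hv _ (mem_lat (per := per) hγ hm)
    simpa using this
  · exact coeff_eq_zero_of_natDegree_lt (lt_of_le_of_lt (hdeg γ hγ v) (not_le.mp hm))

end

end Fermat.Agent.S22.LatticeAbs
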