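import Fermat.Prelude.Def_CuspForm_HeckeAlgebra
import Fermat.Prelude.Thm_ModularForm_sturm_bound_Gamma0
import Fermat.Prelude.Thm_CongruenceSubgroup_one_mem_strictPeriods_Gamma0

set_option autoImplicit false

namespace Fermat.Agent.S22.Trivial

open CuspForm CongruenceSubgroup UpperHalfPlane
open scoped MatrixGroups ModularForm

/-- Cusp forms of weight `k ≤ 0` on `Γ₀(N)` vanish (Sturm bound with bound index `0`). -/
theorem cuspForm_eq_zero_of_nonpos (N : ℕ) [NeZero N] {k : ℤ} (hk : k ≤ 0)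
    (f : CuspForm (Gamma0 N) k) : f = 0 := by
  have hmf : (ModularFormClass.modularForm f : ModularForm (Gamma0 N) k) = 0 := by
    refine ModularForm.sturm_bound_Gamma0 N _ fun n hn ↦ ?_
    have h0 : (k * ((Gamma0 N).index : ℤ)).toNat / 12 = 0 := by
      have : k * ((Gamma0 N).index : ℤ) ≤ 0 :=
        mul_nonpos_of_nonpos_of_nonneg hk (Int.natCast_nonneg _)
      rw [Int.toNat_of_nonpos this]
    rw [h0] at hn
    obtain rfl : n = 0 := Nat.le_zero.mp hn
    exact CuspFormClass.qExpansion_coeff_zero f one_pos (one_mem_strictPeriods_Gamma0 N)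
  have hcoe : (⇑f : ℍ → ℂ) = 0 := by
    have := congrArg (fun F : ModularForm (Gamma0 N) k ↦ (⇑F : ℍ → ℂ)) hmf
    simpa using this
  exact DFunLike.coe_injective (hcoe.trans (FunLike.coe_zero (F := CuspForm (Gamma0 N) k)).symm)

theorem neg_one_mem_Gamma0 (N : ℕ) :
    (-1 : GL (Fin 2) ℝ) ∈ (Gamma0 N : Subgroup (GL (Fin 2) ℝ)) := by
  refine ⟨-1, ?_, ?_⟩
  · rw [SetLike.mem_coe, Gamma0_mem]
    simp
  · ext i j
    fin_cases i <;> fin_cases j <;> simp

/-- Cusp forms of odd weight on `Γ₀(N)` vanish, since `-1 ∈ Γ₀(N)`. -/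
theorem cuspForm_eq_zero_of_odd (N : ℕ) {k : ℤ} (hk : Odd k)
    (f : CuspForm (Gamma0 N) k) : f = 0 := by
  have hmf : (ModularFormClass.modularForm f : ModularForm (Gamma0 N) k) = 0 :=
    ModularForm.eq_zero_of_neg_one_mem (neg_one_mem_Gamma0 N) hk _
  have hcoe : (⇑f : ℍ → ℂ) = 0 := by
    have := congrArg (fun F : ModularForm (Gamma0 N) k ↦ (⇑F : ℍ → ℂ)) hmf
    simpa using this
  exact DFunLike.coe_injective (hcoe.trans (FunLike.coe_zero (F := CuspForm (Gamma0 N) k)).symm)

/-- If the space of cusp forms is trivial, the Hecke algebra is trivially finite over `ℤ`. -/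
theorem moduleFinite_of_forall_eq_zero (N : ℕ) [NeZero N] (k : ℤ) (S : Set ℕ)
    (h : ∀ f : CuspForm (Gamma0 N) k, f = 0) :
    Module.Finite ℤ (CuspForm.heckeAlgebra N k S) := by
  have : Subsingleton (CuspForm (Gamma0 N) k) := ⟨fun f g ↦ (h f).trans (h g).symm⟩
  have : Subsingleton (Module.End ℂ (CuspForm (Gamma0 N) k)) :=
    ⟨fun a b ↦ LinearMap.ext fun x ↦ Subsingleton.elim _ _⟩
  have : Subsingleton (CuspForm.heckeAlgebra N k S) :=
    ⟨fun a b ↦ Subtype.ext (Subsingleton.elim _ _)⟩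
  infer_instance

/-- It suffices to treat the full Hecke algebra (`S = ∅`). -/
theorem moduleFinite_of_empty (N : ℕ) [NeZero N] (k : ℤ) (S : Set ℕ)
    (h : Module.Finite ℤ (CuspForm.heckeAlgebra N k ∅)) :
    Module.Finite ℤ (CuspForm.heckeAlgebra N k S) := by
  have hle : CuspForm.heckeAlgebra N k S ≤ CuspForm.heckeAlgebra N k ∅ :=
    CuspForm.heckeAlgebra_mono (Set.empty_subset S)
  have : IsNoetherian ℤ (CuspForm.heckeAlgebra N k ∅) := isNoetherian_of_isNoetherianRing_of_finite ℤ _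
  exact Module.Finite.of_injective (Subalgebra.inclusion hle).toLinearMap
    (Subalgebra.inclusion_injective hle)

/-- The case `k < 2` of the finiteness of the Hecke algebra. -/
theorem moduleFinite_of_lt_two (N : ℕ) [NeZero N] {k : ℤ} (hk : k < 2) (S : Set ℕ) :
    Module.Finite ℤ (CuspForm.heckeAlgebra N k S) := by
  refine moduleFinite_of_forall_eq_zero N k S fun f ↦ ?_
  rcases lt_or_eq_of_le (Int.lt_add_one_iff.mp (show k < 1 + 1 by simpa using hk)) with h | h
  · exact cuspForm_eq_zero_of_nonpos N (Int.lt_add_one_iff.mp (by simpa using h)) f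
  · exact cuspForm_eq_zero_of_odd N (h ▸ odd_one) f

end Fermat.Agent.S22.Trivial
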