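import Fermat.Agent.S22.Inject
import Fermat.Agent.S22.Cocycle
import Fermat.Agent.S22.EichlerDefs
import Fermat.Agent.S22.EichlerExist
import Fermat.Agent.S22.CuspAux
import Fermat.Agent.S22.HeckePerm
import Fermat.Agent.S22.LatticeAbs
import Fermat.Agent.S22.Endgame
import Fermat.Agent.S22.Trivial
import Fermat.Prelude.Def_CuspForm_HeckeAlgebra

set_option autoImplicit false

/-!
Final glue for S22: the period lattice of cusp forms on `Γ₀(N)` of weight `n + 2` is finitely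
generated, separating and stable under the Hecke generators, hence the Hecke algebra is a
finitely generated `ℤ`-module.
-/

namespace Fermat.Agent.S22.Final

open Polynomial UpperHalfPlane CongruenceSubgroup Matrix.SpecialLinearGroup ModularForm
open Fermat.Agent.S22.EichlerDefs Fermat.Agent.S22.PolyAct Fermat.Agent.S22.Cocycle
open Fermat.Agent.S22.HeckePerm
open scoped MatrixGroups ModularForm

noncomputable section


theorem hasDerivAt_eval_of_isE1 {n : ℕ} {f : ℍ → ℂ} {F : ℍ → ℂ[X]} (h1 : IsE1 n f F)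
    (t : ℂ) (τ : ℍ) :
    HasDerivAt (fun u : ℂ => (F (ofComplex u)).eval t) (f τ * ((τ : ℂ) - t) ^ n) (τ : ℂ) := by
  have hfun : (fun u : ℂ => (F (ofComplex u)).eval t) =
      fun u : ℂ => ∑ j ∈ Finset.range (n + 1), (F (ofComplex u)).coeff j * t ^ j := by
    funext u
    exact eval_eq_sum_range' (Nat.lt_succ_of_le (h1.1 _)) t
  have hdeg : ((C (τ : ℂ) - X : ℂ[X]) ^ n).natDegree ≤ n := by
    refine natDegree_pow_le.trans ?_
    have : (C (τ : ℂ) - X : ℂ[X]).natDegree ≤ 1 := by compute_degree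
    nlinarith
  have hval : f τ * ((τ : ℂ) - t) ^ n =
      ∑ j ∈ Finset.range (n + 1), f τ * ((C (τ : ℂ) - X : ℂ[X]) ^ n).coeff j * t ^ j := by
    have h := eval_eq_sum_range' (Nat.lt_succ_of_le hdeg) t
    simp only [eval_pow, eval_sub, eval_C, eval_X] at h
    rw [h, Finset.mul_sum]
    exact Finset.sum_congr rfl fun j _ => by ring
  rw [hfun, hval]
  exact HasDerivAt.fun_sum fun j _ => (h1.2 j τ).mul_const (t ^ j)

theorem eq_zero_of_period_eq_zero {N : ℕ} [NeZero N] {n : ℕ}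
    (f : CuspForm (Gamma0 N) ((n : ℤ) + 2)) {F : ℍ → ℂ[X]} (h1 : IsE1 n f F)
    (hper : ∀ γ ∈ Gamma0 N, period n F (mapGL ℝ γ) = 0) : f = 0 := by
  refine Inject.inject_core n f 1 one_ne_zero (fun τ t => (F τ).eval t)
    (fun τ => ⟨F τ, h1.1 τ, fun t => rfl⟩) (fun t τ => ?_) (fun γ hγ τ => ?_)
  · simpa using hasDerivAt_eval_of_isE1 h1 t τ
  · have hdet : 0 < (mapGL ℝ γ : GL (Fin 2) ℝ).val.det := Inject.det_coe_SL_pos γ
    have hfγ : (f : ℍ → ℂ) ∣[(n : ℤ) + 2] (mapGL ℝ γ : GL (Fin 2) ℝ) = f :=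
      SlashInvariantFormClass.slash_action_eq f _ (Subgroup.mem_map_of_mem _ hγ)
    have hspec := period_spec h1 hdet hfγ τ
    rw [hper γ hγ, sub_eq_zero] at hspec
    have hev := congrArg (fun p : ℂ[X] => p.eval (τ : ℂ)) hspec
    rw [eval_polyAct n _ (h1.1 _) (denom_ne_zero _ τ)] at hev
    rw [hev]
    congr 2
    exact Inject.coe_smul_SL γ τ



variable (N : ℕ) [NeZero N] (n : ℕ)

theorem exists_eichler_cusp (f : CuspForm (Gamma0 N) ((n : ℤ) + 2)) :
    ∃ F : ℍ → ℂ[X], IsE1 n f F ∧ IsE2 F := by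
  obtain ⟨F, h1, h2, -⟩ := EichlerExist.exists_eichler n one_pos (CuspAux.isEP_one N f)
  exact ⟨F, h1, h2⟩

/-- The Eichler integral of a cusp form. -/
def eichF (f : CuspForm (Gamma0 N) ((n : ℤ) + 2)) : ℍ → ℂ[X] :=
  Classical.choose (exists_eichler_cusp N n f)

theorem isE1_eichF (f : CuspForm (Gamma0 N) ((n : ℤ) + 2)) : IsE1 n f (eichF N n f) :=
  (Classical.choose_spec (exists_eichler_cusp N n f)).1

theorem isE2_eichF (f : CuspForm (Gamma0 N) ((n : ℤ) + 2)) : IsE2 (eichF N n f) :=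
  (Classical.choose_spec (exists_eichler_cusp N n f)).2

theorem eichF_add (f g : CuspForm (Gamma0 N) ((n : ℤ) + 2)) :
    eichF N n (f + g) = eichF N n f + eichF N n g := by
  refine eichler_unique (isE1_eichF N n (f + g)) (isE2_eichF N n (f + g)) ?_
    ((isE2_eichF N n f).add (isE2_eichF N n g))
  have h := (isE1_eichF N n f).add (isE1_eichF N n g)
  have e : (⇑(f + g) : ℍ → ℂ) = ⇑f + ⇑g := rfl
  rwa [← e] at h

theorem eichF_smul (c : ℂ) (f : CuspForm (Gamma0 N) ((n : ℤ) + 2)) :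
    eichF N n (c • f) = c • eichF N n f := by
  refine eichler_unique (isE1_eichF N n (c • f)) (isE2_eichF N n (c • f)) ?_
    ((isE2_eichF N n f).smul c)
  have h := (isE1_eichF N n f).smul c
  have e : (⇑(c • f) : ℍ → ℂ) = c • ⇑f := rfl
  rwa [← e] at h

/-- The period map at `γ`. -/
def per (γ : SL(2, ℤ)) : CuspForm (Gamma0 N) ((n : ℤ) + 2) →ₗ[ℂ] ℂ[X] where
  toFun f := period n (eichF N n f) (mapGL ℝ γ)
  map_add' f g := by rw [eichF_add, period_add]
  map_smul' c f := by rw [eichF_smul, period_smul]; rfl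

theorem per_apply (γ : SL(2, ℤ)) (f : CuspForm (Gamma0 N) ((n : ℤ) + 2)) :
    per N n γ f = period n (eichF N n f) (mapGL ℝ γ) := rfl

theorem slash_eq (f : CuspForm (Gamma0 N) ((n : ℤ) + 2)) {γ : SL(2, ℤ)} (hγ : γ ∈ Gamma0 N) :
    (f : ℍ → ℂ) ∣[(n : ℤ) + 2] (mapGL ℝ γ : GL (Fin 2) ℝ) = f :=
  SlashInvariantFormClass.slash_action_eq f _ (Subgroup.mem_map_of_mem _ hγ)

theorem hdeg : ∀ γ ∈ Gamma0 N, ∀ f : CuspForm (Gamma0 N) ((n : ℤ) + 2),
    (per N n γ f).natDegree ≤ n := by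
  intro γ _ f
  rw [per_apply, period]
  exact (natDegree_sub_le _ _).trans
    (max_le ((isE1_eichF N n f).1 _) (natDegree_polyAct_le n _ _))

theorem hcoc : ∀ γ ∈ Gamma0 N, ∀ δ ∈ Gamma0 N, ∀ f : CuspForm (Gamma0 N) ((n : ℤ) + 2),
    per N n (γ * δ) f = per N n δ f + polyAct n (mapGL ℝ δ) (per N n γ f) := by
  intro γ hγ δ _ f
  simp only [per_apply, map_mul]
  exact period_mul (isE1_eichF N n f) (Inject.det_coe_SL_pos γ) (slash_eq N n f hγ)

theorem hsep : ∀ f : CuspForm (Gamma0 N) ((n : ℤ) + 2),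
    (∀ γ ∈ Gamma0 N, per N n γ f = 0) → f = 0 :=
  fun f h => eq_zero_of_period_eq_zero f (isE1_eichF N n f) h

/-! ### Hecke representatives -/

theorem tRep_det_pos (p : ℕ) (x : OnePoint (ZMod p)) : 0 < (tRep p x).val.det := by
  induction x using OnePoint.rec with
  | infty => exact det_heckeDiagMatrix_pos p
  | coe j => exact det_heckeMatrix_pos p j.val

theorem heckeMatrix_entries {p : ℕ} (hp : p ≠ 0) (j : ℕ) :
    (heckeMatrix p j) 0 0 = 1 ∧ (heckeMatrix p j) 0 1 = (j : ℝ) ∧ (heckeMatrix p j) 1 0 = 0 ∧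
      (heckeMatrix p j) 1 1 = (p : ℝ) := by
  have h := val_heckeMatrix hp j
  refine ⟨?_, ?_, ?_, ?_⟩
  · simpa using congrFun (congrFun h 0) 0
  · simpa using congrFun (congrFun h 0) 1
  · simpa using congrFun (congrFun h 1) 0
  · simpa using congrFun (congrFun h 1) 1

theorem heckeDiagMatrix_entries {p : ℕ} (hp : p ≠ 0) :
    (heckeDiagMatrix p) 0 0 = (p : ℝ) ∧ (heckeDiagMatrix p) 0 1 = 0 ∧ (heckeDiagMatrix p) 1 0 = 0 ∧
      (heckeDiagMatrix p) 1 1 = 1 := by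
  have h := val_heckeDiagMatrix hp
  refine ⟨?_, ?_, ?_, ?_⟩
  · simpa using congrFun (congrFun h 0) 0
  · simpa using congrFun (congrFun h 0) 1
  · simpa using congrFun (congrFun h 1) 0
  · simpa using congrFun (congrFun h 1) 1

theorem heckeMatrix_int {p : ℕ} (hp : p ≠ 0) (j : ℕ) (a b : Fin 2) :
    ∃ z : ℤ, ((heckeMatrix p j) a b : ℝ) = z := by
  obtain ⟨h00, h01, h10, h11⟩ := heckeMatrix_entries hp j
  fin_cases a <;> fin_cases b
  · exact ⟨1, by simpa using h00⟩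
  · exact ⟨j, by simpa using h01⟩
  · exact ⟨0, by simpa using h10⟩
  · exact ⟨p, by simpa using h11⟩

theorem heckeDiagMatrix_int {p : ℕ} (hp : p ≠ 0) (a b : Fin 2) :
    ∃ z : ℤ, ((heckeDiagMatrix p) a b : ℝ) = z := by
  obtain ⟨h00, h01, h10, h11⟩ := heckeDiagMatrix_entries hp
  fin_cases a <;> fin_cases b
  · exact ⟨p, by simpa using h00⟩
  · exact ⟨0, by simpa using h01⟩
  · exact ⟨0, by simpa using h10⟩
  · exact ⟨1, by simpa using h11⟩

theorem tRep_int {p : ℕ} (hp : p ≠ 0) (x : OnePoint (ZMod p)) (a b : Fin 2) :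
    ∃ z : ℤ, ((tRep p x) a b : ℝ) = z := by
  induction x using OnePoint.rec with
  | infty => exact heckeDiagMatrix_int hp a b
  | coe j => exact heckeMatrix_int hp j.val a b

theorem tRep_upper {p : ℕ} (hp : p ≠ 0) (x : OnePoint (ZMod p)) :
    (tRep p x) 1 0 = 0 ∧ 0 < (tRep p x) 0 0 ∧ 0 < (tRep p x) 1 1 := by
  have hp' : (0 : ℝ) < p := by exact_mod_cast Nat.pos_of_ne_zero hp
  induction x using OnePoint.rec with
  | infty =>
    obtain ⟨h00, -, h10, h11⟩ := heckeDiagMatrix_entries hp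
    rw [tRep_infty, h00, h10, h11]
    exact ⟨rfl, hp', one_pos⟩
  | coe j =>
    obtain ⟨h00, -, h10, h11⟩ := heckeMatrix_entries hp j.val
    rw [tRep_coe, h00, h10, h11]
    exact ⟨rfl, one_pos, hp'⟩

/-! ### Hecke relations -/

theorem eichF_heckeT {p : ℕ} (hp : p.Prime) (hpN : ¬ p ∣ N)
    (f : CuspForm (Gamma0 N) ((n : ℤ) + 2)) :
    haveI : NeZero p := ⟨hp.ne_zero⟩
    eichF N n (CuspForm.heckeTLin ((n : ℤ) + 2) hp hpN f) = heckeF n (tRep p) (eichF N n f) := by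
  have : NeZero p := ⟨hp.ne_zero⟩
  refine eichler_unique (isE1_eichF N n _) (isE2_eichF N n _) ?_ ?_
  · have h := isE1_heckeF (isE1_eichF N n f) (tRep p) (tRep_det_pos p)
    rwa [← heckeT_eq_sum_tRep, ← CuspForm.coe_heckeTLin_apply ((n : ℤ) + 2) hp hpN f] at h
  · exact isE2_heckeF (isE2_eichF N n f) (tRep p) (fun x => (tRep_upper hp.ne_zero x).1)
      (fun x => (tRep_upper hp.ne_zero x).2.1) (fun x => (tRep_upper hp.ne_zero x).2.2)

theorem eichF_heckeU {p : ℕ} (hp : p.Prime) (hpN : p ∣ N)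
    (f : CuspForm (Gamma0 N) ((n : ℤ) + 2)) :
    haveI : NeZero p := ⟨hp.ne_zero⟩
    eichF N n (CuspForm.heckeULin ((n : ℤ) + 2) hpN f) =
      heckeF n (fun x : ZMod p => heckeMatrix p x.val) (eichF N n f) := by
  have : NeZero p := ⟨hp.ne_zero⟩
  have hp' : (0 : ℝ) < p := by exact_mod_cast hp.pos
  refine eichler_unique (isE1_eichF N n _) (isE2_eichF N n _) ?_ ?_
  · have h := isE1_heckeF (isE1_eichF N n f) (fun x : ZMod p => heckeMatrix p x.val)
      (fun x => det_heckeMatrix_pos p x.val)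
    rwa [← heckeU_eq_sum_zmod, ← CuspForm.coe_heckeULin_apply ((n : ℤ) + 2) hpN f] at h
  · refine isE2_heckeF (isE2_eichF N n f) _ (fun x => ?_) (fun x => ?_) (fun x => ?_)
    · exact (heckeMatrix_entries hp.ne_zero x.val).2.2.1
    · rw [(heckeMatrix_entries hp.ne_zero x.val).1]; exact one_pos
    · rw [(heckeMatrix_entries hp.ne_zero x.val).2.2.2]; exact hp'

theorem hrelT {p : ℕ} (hp : p.Prime) (hpN : ¬ p ∣ N) :
    ∀ γ ∈ Gamma0 N, ∃ (σ : Equiv.Perm (OnePoint (ZMod p))) (γ' : OnePoint (ZMod p) → SL(2, ℤ)),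
      (∀ x, γ' x ∈ Gamma0 N) ∧ ∀ f : CuspForm (Gamma0 N) ((n : ℤ) + 2),
        per N n γ (CuspForm.heckeTLin ((n : ℤ) + 2) hp hpN f) =
          haveI : NeZero p := ⟨hp.ne_zero⟩
          ∑ x, polyAct n (tRep p (σ x)) (per N n (γ' x) f) := by
  intro γ hγ
  have : NeZero p := ⟨hp.ne_zero⟩
  obtain ⟨σ, g', hg', hmul⟩ := exists_perm_T hp hpN γ hγ
  refine ⟨σ, g', hg', fun f => ?_⟩
  rw [per_apply, eichF_heckeT N n hp hpN f]
  exact period_heckeF (isE1_eichF N n f) (tRep p) σ (mapGL ℝ γ) (fun x => mapGL ℝ (g' x))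
    (fun x => Inject.det_coe_SL_pos (g' x)) (fun x => slash_eq N n f (hg' x)) hmul

theorem hrelU {p : ℕ} (hp : p.Prime) (hpN : p ∣ N) :
    haveI : NeZero p := ⟨hp.ne_zero⟩
    ∀ γ ∈ Gamma0 N, ∃ (σ : Equiv.Perm (ZMod p)) (γ' : ZMod p → SL(2, ℤ)),
      (∀ x, γ' x ∈ Gamma0 N) ∧ ∀ f : CuspForm (Gamma0 N) ((n : ℤ) + 2),
        per N n γ (CuspForm.heckeULin ((n : ℤ) + 2) hpN f) =
          ∑ x, polyAct n (heckeMatrix p (σ x).val) (per N n (γ' x) f) := by
  have : NeZero p := ⟨hp.ne_zero⟩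
  intro γ hγ
  obtain ⟨σ, g', hg', hmul⟩ := exists_perm_U hpN γ hγ
  refine ⟨σ, g', hg', fun f => ?_⟩
  rw [per_apply, eichF_heckeU N n hp hpN f]
  exact period_heckeF (isE1_eichF N n f) (fun x : ZMod p => heckeMatrix p x.val) σ (mapGL ℝ γ)
    (fun x => mapGL ℝ (g' x)) (fun x => Inject.det_coe_SL_pos (g' x))
    (fun x => slash_eq N n f (hg' x)) hmul

/-- Finiteness of the Hecke algebra in weight `n + 2`. -/
theorem finite_heckeAlgebra (S : Set ℕ) :
    Module.Finite ℤ (CuspForm.heckeAlgebra N ((n : ℤ) + 2) S) := by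
  refine Endgame.finite_of_dual_lattice _ (LatticeAbs.lat N n (per N n))
    (LatticeAbs.lat_fg N n _ (hdeg N n) (hcoc N n))
    (LatticeAbs.lat_sep N n _ (hdeg N n) (hsep N n)) ?_
  refine Endgame.comp_mem_of_mem_adjoin _ _ ?_
  rintro t (⟨ℓ, hℓ, hℓN, -, rfl⟩ | ⟨q, hqN, hq, -, rfl⟩)
  · have : NeZero ℓ := ⟨hℓ.ne_zero⟩
    exact LatticeAbs.lat_comp_mem N n (per N n) _ (tRep ℓ) (tRep_int hℓ.ne_zero)
      (hrelT N n hℓ hℓN)
  · have : NeZero q := ⟨hq.ne_zero⟩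
    exact LatticeAbs.lat_comp_mem N n (per N n) _ (fun x : ZMod q => heckeMatrix q x.val)
      (fun x => heckeMatrix_int hq.ne_zero x.val) (hrelU N n hq hqN)

end

end Fermat.Agent.S22.Final
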