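import Mathlib
import Fermat.Agent.S22.Cocycle
import Fermat.Agent.S22.HeckePerm
import Fermat.Prelude.Def_CuspForm_HeckeAlgebra

set_option autoImplicit false

namespace Fermat.Agent.S22.HeckeLat

open Polynomial UpperHalfPlane CongruenceSubgroup Matrix.SpecialLinearGroup ModularForm
open scoped MatrixGroups ModularForm
open Fermat.Agent.S22.PolyAct Fermat.Agent.S22.EichlerDefs Fermat.Agent.S22.Cocycle
  Fermat.Agent.S22.HeckePerm

noncomputable section

/-! ### Elementary facts on the Hecke coset representatives -/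

theorem heckeMatrix_entry_int (p j : ℕ) (a b : Fin 2) :
    ∃ z : ℤ, (heckeMatrix p j a b : ℝ) = z := by
  by_cases hp : p = 0
  · subst hp
    rw [heckeMatrix_zero]
    fin_cases a <;> fin_cases b
    · exact ⟨1, by simp⟩
    · exact ⟨0, by simp⟩
    · exact ⟨0, by simp⟩
    · exact ⟨1, by simp⟩
  · have h := val_heckeMatrix hp j
    have e : ∀ a b : Fin 2, (heckeMatrix p j a b : ℝ) =
        (!![(1 : ℝ), (j : ℝ); 0, (p : ℝ)] : Matrix (Fin 2) (Fin 2) ℝ) a b := by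
      intro a b
      rw [← h]
    rw [e]
    fin_cases a <;> fin_cases b
    · exact ⟨1, by simp⟩
    · exact ⟨j, by simp⟩
    · exact ⟨0, by simp⟩
    · exact ⟨p, by simp⟩

theorem heckeDiagMatrix_entry_int (p : ℕ) (a b : Fin 2) :
    ∃ z : ℤ, (heckeDiagMatrix p a b : ℝ) = z := by
  by_cases hp : p = 0
  · subst hp
    rw [heckeDiagMatrix_zero]
    fin_cases a <;> fin_cases b
    · exact ⟨1, by simp⟩
    · exact ⟨0, by simp⟩
    · exact ⟨0, by simp⟩
    · exact ⟨1, by simp⟩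
  · have h := val_heckeDiagMatrix hp
    have e : ∀ a b : Fin 2, (heckeDiagMatrix p a b : ℝ) =
        (!![(p : ℝ), 0; 0, 1] : Matrix (Fin 2) (Fin 2) ℝ) a b := by
      intro a b
      rw [← h]
    rw [e]
    fin_cases a <;> fin_cases b
    · exact ⟨p, by simp⟩
    · exact ⟨0, by simp⟩
    · exact ⟨0, by simp⟩
    · exact ⟨1, by simp⟩

theorem heckeMatrix_10 (p j : ℕ) : (heckeMatrix p j 1 0 : ℝ) = 0 := by
  by_cases hp : p = 0
  · subst hp
    rw [heckeMatrix_zero]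
    simp
  · have h := val_heckeMatrix hp j
    have e : (heckeMatrix p j 1 0 : ℝ) =
        (!![(1 : ℝ), (j : ℝ); 0, (p : ℝ)] : Matrix (Fin 2) (Fin 2) ℝ) 1 0 := by
      rw [← h]
    rw [e]
    simp

theorem heckeMatrix_00 (p j : ℕ) : (heckeMatrix p j 0 0 : ℝ) = 1 := by
  by_cases hp : p = 0
  · subst hp
    rw [heckeMatrix_zero]
    simp
  · have h := val_heckeMatrix hp j
    have e : (heckeMatrix p j 0 0 : ℝ) =
        (!![(1 : ℝ), (j : ℝ); 0, (p : ℝ)] : Matrix (Fin 2) (Fin 2) ℝ) 0 0 := by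
      rw [← h]
    rw [e]
    simp

theorem heckeMatrix_11_pos (p j : ℕ) : 0 < (heckeMatrix p j 1 1 : ℝ) := by
  by_cases hp : p = 0
  · subst hp
    rw [heckeMatrix_zero]
    simp
  · have h := val_heckeMatrix hp j
    have e : (heckeMatrix p j 1 1 : ℝ) =
        (!![(1 : ℝ), (j : ℝ); 0, (p : ℝ)] : Matrix (Fin 2) (Fin 2) ℝ) 1 1 := by
      rw [← h]
    rw [e]
    simpa using Nat.pos_of_ne_zero hp

theorem heckeDiagMatrix_10 (p : ℕ) : (heckeDiagMatrix p 1 0 : ℝ) = 0 := by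
  by_cases hp : p = 0
  · subst hp
    rw [heckeDiagMatrix_zero]
    simp
  · have h := val_heckeDiagMatrix hp
    have e : (heckeDiagMatrix p 1 0 : ℝ) =
        (!![(p : ℝ), 0; 0, 1] : Matrix (Fin 2) (Fin 2) ℝ) 1 0 := by
      rw [← h]
    rw [e]
    simp

theorem heckeDiagMatrix_00_pos (p : ℕ) : 0 < (heckeDiagMatrix p 0 0 : ℝ) := by
  by_cases hp : p = 0
  · subst hp
    rw [heckeDiagMatrix_zero]
    simp
  · have h := val_heckeDiagMatrix hp
    have e : (heckeDiagMatrix p 0 0 : ℝ) =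
        (!![(p : ℝ), 0; 0, 1] : Matrix (Fin 2) (Fin 2) ℝ) 0 0 := by
      rw [← h]
    rw [e]
    simpa using Nat.pos_of_ne_zero hp

theorem heckeDiagMatrix_11 (p : ℕ) : (heckeDiagMatrix p 1 1 : ℝ) = 1 := by
  by_cases hp : p = 0
  · subst hp
    rw [heckeDiagMatrix_zero]
    simp
  · have h := val_heckeDiagMatrix hp
    have e : (heckeDiagMatrix p 1 1 : ℝ) =
        (!![(p : ℝ), 0; 0, 1] : Matrix (Fin 2) (Fin 2) ℝ) 1 1 := by
      rw [← h]
    rw [e]
    simp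

theorem tRep_entry_int (p : ℕ) (x : OnePoint (ZMod p)) (a b : Fin 2) :
    ∃ z : ℤ, (tRep p x a b : ℝ) = z := by
  induction x using OnePoint.rec with
  | infty => exact heckeDiagMatrix_entry_int p a b
  | coe j => exact heckeMatrix_entry_int p j.val a b

theorem tRep_10 (p : ℕ) (x : OnePoint (ZMod p)) : (tRep p x 1 0 : ℝ) = 0 := by
  induction x using OnePoint.rec with
  | infty => exact heckeDiagMatrix_10 p
  | coe j => exact heckeMatrix_10 p j.val

theorem tRep_00_pos (p : ℕ) (x : OnePoint (ZMod p)) : 0 < (tRep p x 0 0 : ℝ) := by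
  induction x using OnePoint.rec with
  | infty => exact heckeDiagMatrix_00_pos p
  | coe j =>
    rw [tRep_coe, heckeMatrix_00]
    exact one_pos

theorem tRep_11_pos (p : ℕ) (x : OnePoint (ZMod p)) : 0 < (tRep p x 1 1 : ℝ) := by
  induction x using OnePoint.rec with
  | infty =>
    rw [tRep_infty, heckeDiagMatrix_11]
    exact one_pos
  | coe j => exact heckeMatrix_11_pos p j.val

theorem tRep_det_pos (p : ℕ) (x : OnePoint (ZMod p)) : 0 < (tRep p x).val.det := by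
  rw [Matrix.det_fin_two]
  have h10 := tRep_10 p x
  have h00 := tRep_00_pos p x
  have h11 := tRep_11_pos p x
  have e1 : (tRep p x).val 1 0 = 0 := h10
  have e2 : 0 < (tRep p x).val 0 0 := h00
  have e3 : 0 < (tRep p x).val 1 1 := h11
  rw [e1, mul_zero, sub_zero]
  exact mul_pos e2 e3

theorem heckeMatrix_det_pos (p j : ℕ) : 0 < (heckeMatrix p j).val.det := by
  rw [Matrix.det_fin_two]
  have e1 : (heckeMatrix p j).val 1 0 = 0 := heckeMatrix_10 p j
  have e2 : (heckeMatrix p j).val 0 0 = 1 := heckeMatrix_00 p j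
  have e3 : 0 < (heckeMatrix p j).val 1 1 := heckeMatrix_11_pos p j
  rw [e1, mul_zero, sub_zero, e2, one_mul]
  exact e3

theorem mapGL_det_pos (γ : SL(2, ℤ)) : 0 < (mapGL ℝ γ).val.det := by
  have h : ((mapGL ℝ γ).det : ℝ) = 1 := by
    rw [Matrix.SpecialLinearGroup.det_mapGL]
    rfl
  rw [← Matrix.GeneralLinearGroup.val_det_apply, h]
  exact one_pos

theorem slash_mapGL_eq {N : ℕ} {k : ℤ} (f : CuspForm (Gamma0 N) k) {γ : SL(2, ℤ)}
    (hγ : γ ∈ Gamma0 N) : (f : ℍ → ℂ) ∣[k] (mapGL ℝ γ) = f :=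
  SlashInvariantFormClass.slash_action_eq f _ (Subgroup.mem_map_of_mem _ hγ)

/-! ### The Hecke relation for periods of cusp forms -/

/-- Hecke relation for `T_p`, `p ∤ N`: the period of (any Eichler integral of) `T_p f` at
`γ ∈ Γ₀(N)` is an integral combination of periods of `f`; the permutation `σ` and the
elements `γ' x ∈ Γ₀(N)` depend only on `γ`. -/
theorem period_heckeT {N : ℕ} {n p : ℕ} [NeZero p] (hp : p.Prime) (hpN : ¬ p ∣ N)
    {γ : SL(2, ℤ)} (hγ : γ ∈ Gamma0 N) :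
    ∃ (σ : Equiv.Perm (OnePoint (ZMod p))) (γ' : OnePoint (ZMod p) → SL(2, ℤ)),
      (∀ x, γ' x ∈ Gamma0 N) ∧
      ∀ (f : CuspForm (Gamma0 N) ((n : ℤ) + 2)) (F F' : ℍ → ℂ[X]),
        IsE1 n f F → IsE2 F →
        IsE1 n (CuspForm.heckeTLin ((n : ℤ) + 2) hp hpN f) F' → IsE2 F' →
        period n F' (mapGL ℝ γ) =
          ∑ x, polyAct n (tRep p (σ x)) (period n F (mapGL ℝ (γ' x))) := by
  obtain ⟨σ, γ', hγ', hrel⟩ := exists_perm_T hp hpN γ hγ
  refine ⟨σ, γ', hγ', fun f F F' h1 h2 h1' h2' => ?_⟩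
  have hH1 : IsE1 n (∑ x, (f : ℍ → ℂ) ∣[(n : ℤ) + 2] tRep p x) (heckeF n (tRep p) F) :=
    isE1_heckeF h1 (tRep p) (tRep_det_pos p)
  have hH2 : IsE2 (heckeF n (tRep p) F) :=
    isE2_heckeF h2 (tRep p) (tRep_10 p) (tRep_00_pos p) (tRep_11_pos p)
  have hcoe : (CuspForm.heckeTLin ((n : ℤ) + 2) hp hpN f : ℍ → ℂ) =
      ∑ x, (f : ℍ → ℂ) ∣[(n : ℤ) + 2] tRep p x := by
    rw [CuspForm.coe_heckeTLin_apply, heckeT_eq_sum_tRep]
  rw [hcoe] at h1'
  have hF' : F' = heckeF n (tRep p) F := eichler_unique h1' h2' hH1 hH2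
  rw [hF']
  exact period_heckeF h1 (tRep p) σ (mapGL ℝ γ) (fun x => mapGL ℝ (γ' x))
    (fun x => mapGL_det_pos (γ' x)) (fun x => slash_mapGL_eq f (hγ' x)) hrel

/-- Hecke relation for `U_p`, `p ∣ N`. -/
theorem period_heckeU {N : ℕ} [NeZero N] {n p : ℕ} [NeZero p] (hpN : p ∣ N) {γ : SL(2, ℤ)}
    (hγ : γ ∈ Gamma0 N) :
    ∃ (σ : Equiv.Perm (ZMod p)) (γ' : ZMod p → SL(2, ℤ)),
      (∀ x, γ' x ∈ Gamma0 N) ∧
      ∀ (f : CuspForm (Gamma0 N) ((n : ℤ) + 2)) (F F' : ℍ → ℂ[X]),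
        IsE1 n f F → IsE2 F →
        IsE1 n (CuspForm.heckeULin ((n : ℤ) + 2) hpN f) F' → IsE2 F' →
        period n F' (mapGL ℝ γ) =
          ∑ x, polyAct n (heckeMatrix p (σ x).val) (period n F (mapGL ℝ (γ' x))) := by
  obtain ⟨σ, γ', hγ', hrel⟩ := exists_perm_U hpN γ hγ
  refine ⟨σ, γ', hγ', fun f F F' h1 h2 h1' h2' => ?_⟩
  set α : ZMod p → GL (Fin 2) ℝ := fun x => heckeMatrix p x.val with hα
  have hH1 : IsE1 n (∑ x, (f : ℍ → ℂ) ∣[(n : ℤ) + 2] α x) (heckeF n α F) :=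
    isE1_heckeF h1 α (fun x => heckeMatrix_det_pos p x.val)
  have hH2 : IsE2 (heckeF n α F) :=
    isE2_heckeF h2 α (fun x => heckeMatrix_10 p x.val)
      (fun x => by rw [hα]; simp only; rw [heckeMatrix_00]; exact one_pos)
      (fun x => heckeMatrix_11_pos p x.val)
  have hcoe : (CuspForm.heckeULin ((n : ℤ) + 2) hpN f : ℍ → ℂ) =
      ∑ x, (f : ℍ → ℂ) ∣[(n : ℤ) + 2] α x := by
    rw [CuspForm.coe_heckeULin_apply, heckeU_eq_sum_zmod]
  rw [hcoe] at h1'
  have hF' : F' = heckeF n α F := eichler_unique h1' h2' hH1 hH2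
  rw [hF']
  exact period_heckeF h1 α σ (mapGL ℝ γ) (fun x => mapGL ℝ (γ' x))
    (fun x => mapGL_det_pos (γ' x)) (fun x => slash_mapGL_eq f (hγ' x)) hrel

end

end Fermat.Agent.S22.HeckeLat
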