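import Mathlib
import Fermat.Agent.S22.Primitive
import Fermat.Agent.S22.PolyAct
import Fermat.Prelude.Thm_Subgroup_IsArithmetic_exists_nat_mem_strictPeriods_conj

set_option autoImplicit false

namespace Fermat.Agent.S22.Inject

open Function Complex Filter Polynomial
open UpperHalfPlane hiding I
open Fermat.Agent.S22.Primitive Fermat.Agent.S22.PolyAct
open scoped Manifold Topology MatrixGroups ModularForm

noncomputable section

/-- The canonical Eichler primitive of `g τ * (τ - t) ^ n` built from iterated primitives of `g`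
vanishing at `i∞`. -/
def eich (M : ℝ) : ℕ → (ℍ → ℂ) → ℍ → ℂ → ℂ
  | 0, g, τ, _ => prim M g τ
  | n + 1, g, τ, t =>
      prim M g τ * ((τ : ℂ) - t) ^ (n + 1) - ((n : ℂ) + 1) * eich M n (prim M g) τ t

theorem eich_zero (M : ℝ) (g : ℍ → ℂ) (τ : ℍ) (t : ℂ) : eich M 0 g τ t = prim M g τ := rfl

theorem eich_succ (M : ℝ) (n : ℕ) (g : ℍ → ℂ) (τ : ℍ) (t : ℂ) :
    eich M (n + 1) g τ t =
      prim M g τ * ((τ : ℂ) - t) ^ (n + 1) - ((n : ℂ) + 1) * eich M n (prim M g) τ t := rfl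

theorem hasDerivAt_coe_sub_pow (t : ℂ) (m : ℕ) (τ : ℍ) :
    HasDerivAt (fun u : ℂ => (((ofComplex u : ℍ) : ℂ) - t) ^ m)
      ((m : ℂ) * ((τ : ℂ) - t) ^ (m - 1)) (τ : ℂ) := by
  have h := ((hasDerivAt_id (τ : ℂ)).sub_const t).pow m
  simp only [id_eq, mul_one] at h
  refine h.congr_of_eventuallyEq ?_
  filter_upwards [eventuallyEq_coe_comp_ofComplex τ.im_pos] with z hz
  simp only [comp_apply, id_eq] at hz
  simp [hz]

theorem eich_hasDerivAt {M : ℝ} (hM : 0 < M) (n : ℕ) :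
    ∀ {g : ℍ → ℂ}, IsEP M g → ∀ (t : ℂ) (τ : ℍ),
      HasDerivAt (fun u : ℂ => eich M n g (ofComplex u) t) (g τ * ((τ : ℂ) - t) ^ n) (τ : ℂ) := by
  induction n with
  | zero =>
    intro g hg t τ
    have h : HasDerivAt (fun u : ℂ => prim M g (ofComplex u)) (g τ) (τ : ℂ) :=
      isPrim_prim hM hg τ
    simp only [pow_zero, mul_one]
    exact h
  | succ n ih =>
    intro g hg t τ
    have h1 : HasDerivAt (fun u : ℂ => prim M g (ofComplex u)) (g τ) (τ : ℂ) :=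
      isPrim_prim hM hg τ
    have h2 := hasDerivAt_coe_sub_pow t (n + 1) τ
    have h3 := ih (isEP_prim hM hg) t τ
    have h4 := (h1.mul h2).sub (h3.const_mul ((n : ℂ) + 1))
    refine h4.congr_deriv ?_
    simp only [ofComplex_apply, Nat.add_sub_cancel, Nat.cast_add, Nat.cast_one]
    ring

theorem isEP_eich_diag {M : ℝ} (hM : 0 < M) (n : ℕ) :
    ∀ {g : ℍ → ℂ}, IsEP M g → IsEP M (fun τ : ℍ => eich M n g τ τ) := by
  induction n with
  | zero =>
    intro g hg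
    exact isEP_prim hM hg
  | succ n ih =>
    intro g hg
    have h := (ih (isEP_prim hM hg)).const_smul (-((n : ℂ) + 1))
    convert h using 1
    funext τ
    simp [eich_succ]
    ring

theorem eq_zero_of_prim_const {M : ℝ} (hM : 0 < M) {g : ℍ → ℂ} (hg : IsEP M g) (κ : ℂ)
    (h : ∀ τ : ℍ, prim M g τ = κ) : g = 0 := by
  funext τ
  have h1 : HasDerivAt (fun u : ℂ => prim M g (ofComplex u)) (g τ) (τ : ℂ) :=
    isPrim_prim hM hg τ
  have h2 : HasDerivAt (fun u : ℂ => prim M g (ofComplex u)) 0 (τ : ℂ) := by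
    have : (fun u : ℂ => prim M g (ofComplex u)) = fun _ => κ := funext fun u => h _
    rw [this]
    exact hasDerivAt_const _ _
  exact h1.unique h2

theorem eq_zero_of_eich_diag_const {M : ℝ} (hM : 0 < M) (n : ℕ) :
    ∀ {g : ℍ → ℂ}, IsEP M g → ∀ κ : ℂ, (∀ τ : ℍ, eich M n g τ τ = κ) → g = 0 := by
  induction n with
  | zero =>
    intro g hg κ h
    exact eq_zero_of_prim_const hM hg κ h
  | succ n ih =>
    intro g hg κ h
    have hne : ((n : ℂ) + 1) ≠ 0 := by exact_mod_cast Nat.succ_ne_zero n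
    have h' : ∀ τ : ℍ, eich M n (prim M g) τ τ = -κ / ((n : ℂ) + 1) := by
      intro τ
      have := h τ
      rw [eich_succ] at this
      simp only [sub_self, ne_eq, Nat.add_eq_zero_iff, one_ne_zero, and_false, not_false_eq_true,
        zero_pow, mul_zero, zero_sub] at this
      field_simp
      linear_combination -this
    have h0 : prim M g = 0 := ih (isEP_prim hM hg) _ h'
    exact eq_zero_of_prim_const hM hg 0 (fun τ => by rw [h0]; rfl)

theorem eich_poly (M : ℝ) (n : ℕ) :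
    ∀ (g : ℍ → ℂ) (τ : ℍ), ∃ p : ℂ[X], p.natDegree ≤ n ∧ ∀ t : ℂ, eich M n g τ t = p.eval t := by
  induction n with
  | zero =>
    intro g τ
    exact ⟨C (prim M g τ), by simp, fun t => by simp [eich]⟩
  | succ n ih =>
    intro g τ
    obtain ⟨p, hp, hpe⟩ := ih (prim M g) τ
    refine ⟨C (prim M g τ) * (C (τ : ℂ) - X) ^ (n + 1) - C ((n : ℂ) + 1) * p, ?_, fun t => ?_⟩
    · refine (natDegree_sub_le _ _).trans (max_le ?_ ?_)
      · refine (natDegree_C_mul_le _ _).trans ((natDegree_pow_le).trans ?_)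
        have : (C (τ : ℂ) - X : ℂ[X]).natDegree ≤ 1 := by compute_degree
        nlinarith
      · exact (natDegree_C_mul_le _ _).trans (hp.trans (Nat.le_succ n))
    · simp [eich_succ, hpe]


theorem det_coe_SL (δ : SL(2, ℤ)) : ((δ : GL (Fin 2) ℝ)).val.det = 1 :=
  (Matrix.SpecialLinearGroup.map (Int.castRingHom ℝ) δ).det_coe

theorem det_coe_SL_pos (δ : SL(2, ℤ)) : 0 < ((δ : GL (Fin 2) ℝ)).val.det := by
  rw [det_coe_SL]; exact one_pos

theorem coe_smul_SL (δ : SL(2, ℤ)) (z : ℍ) :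
    ((δ • z : ℍ) : ℂ) = num (δ : GL (Fin 2) ℝ) z / denom (δ : GL (Fin 2) ℝ) z :=
  coe_smul_of_det_pos (det_coe_SL_pos δ) z

theorem smul_sub_smul (δ : SL(2, ℤ)) (z t : ℍ) :
    ((δ • z : ℍ) : ℂ) - ((δ • t : ℍ) : ℂ) =
      ((z : ℂ) - t) / (denom (δ : GL (Fin 2) ℝ) z * denom (δ : GL (Fin 2) ℝ) t) := by
  rw [coe_smul_SL, coe_smul_SL, div_sub_div _ _ (denom_ne_zero _ z) (denom_ne_zero _ t)]
  congr 1
  have hdet := det_coe_SL δ
  rw [Matrix.det_fin_two] at hdet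
  have hdet' : (((δ : GL (Fin 2) ℝ) 0 0 : ℝ) : ℂ) * (((δ : GL (Fin 2) ℝ) 1 1 : ℝ) : ℂ) -
      (((δ : GL (Fin 2) ℝ) 0 1 : ℝ) : ℂ) * (((δ : GL (Fin 2) ℝ) 1 0 : ℝ) : ℂ) = 1 := by
    exact_mod_cast congrArg (fun x : ℝ => (x : ℂ)) hdet
  simp only [num, denom]
  linear_combination ((z : ℂ) - t) * hdet'

/-- Chain rule: the transformed kernel primitive. -/
theorem hasDerivAt_transform (n : ℕ) (f : ℍ → ℂ) (c : ℂ) (P : ℍ → ℂ → ℂ)
    (hderiv : ∀ (t : ℂ) (τ : ℍ),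
      HasDerivAt (fun u : ℂ => P (ofComplex u) t) (c * f τ * ((τ : ℂ) - t) ^ n) (τ : ℂ))
    (δ : SL(2, ℤ)) (t z : ℍ) :
    HasDerivAt
      (fun u : ℂ => denom (δ : GL (Fin 2) ℝ) t ^ n * P (δ • ofComplex u) ((δ • t : ℍ) : ℂ))
      (c * (f ∣[(n : ℤ) + 2] δ) z * ((z : ℂ) - t) ^ n) (z : ℂ) := by
  have h1 := (hasStrictDerivAt_smul (det_coe_SL_pos δ) z).hasDerivAt
  have h2 : HasDerivAt (fun u : ℂ => P (ofComplex u) ((δ • t : ℍ) : ℂ))
      (c * f (δ • z) * (((δ • z : ℍ) : ℂ) - ((δ • t : ℍ) : ℂ)) ^ n)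
      ((fun w : ℂ => (((δ : GL (Fin 2) ℝ) • ofComplex w : ℍ) : ℂ)) (z : ℂ)) := by
    simpa [ofComplex_apply] using hderiv ((δ • t : ℍ) : ℂ) (δ • z)
  have h3 := (HasDerivAt.comp (z : ℂ) h2 h1).const_mul (denom (δ : GL (Fin 2) ℝ) t ^ n)
  refine (h3.congr_of_eventuallyEq (Eventually.of_forall fun u => ?_)).congr_deriv ?_
  · simp [ofComplex_apply]
  · rw [smul_sub_smul, ModularForm.SL_slash_apply, det_coe_SL]
    have hz := denom_ne_zero (δ : GL (Fin 2) ℝ) z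
    have ht := denom_ne_zero (δ : GL (Fin 2) ℝ) t
    rw [zpow_neg, show ((n : ℤ) + 2) = ((n + 2 : ℕ) : ℤ) by push_cast; ring, zpow_natCast,
      div_pow, mul_pow, Complex.ofReal_one, pow_add]
    field_simp


section Main

open scoped Pointwise

variable {N : ℕ} [NeZero N]

/-- The diagonal of an invariant kernel primitive is slash-invariant of weight `-n`. -/
def diagSIF (n : ℕ) (P : ℍ → ℂ → ℂ)
    (hinv : ∀ γ ∈ CongruenceSubgroup.Gamma0 N, ∀ τ : ℍ,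
      denom (γ : GL (Fin 2) ℝ) τ ^ n * P (γ • τ) ((γ • τ : ℍ) : ℂ) = P τ τ) :
    SlashInvariantForm
      (Subgroup.map (Matrix.SpecialLinearGroup.mapGL ℝ) (CongruenceSubgroup.Gamma0 N))
      (-(n : ℤ)) where
  toFun τ := P τ τ
  slash_action_eq' := by
    rintro _ ⟨γ, hγ, rfl⟩
    funext τ
    have h := ModularForm.SL_slash_apply (k := -(n : ℤ)) (fun τ : ℍ => P τ (τ : ℂ)) γ τ
    rw [neg_neg, zpow_natCast, mul_comm] at h
    exact h.trans (hinv γ hγ τ)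

theorem exists_const_slash (n : ℕ) (f : CuspForm (CongruenceSubgroup.Gamma0 N) ((n : ℤ) + 2))
    (c : ℂ) (P : ℍ → ℂ → ℂ)
    (hpoly : ∀ τ : ℍ, ∃ p : ℂ[X], p.natDegree ≤ n ∧ ∀ t : ℂ, P τ t = p.eval t)
    (hderiv : ∀ (t : ℂ) (τ : ℍ),
      HasDerivAt (fun u : ℂ => P (ofComplex u) t) (c * f τ * ((τ : ℂ) - t) ^ n) (τ : ℂ))
    (hinv : ∀ γ ∈ CongruenceSubgroup.Gamma0 N, ∀ τ : ℍ,
      denom (γ : GL (Fin 2) ℝ) τ ^ n * P (γ • τ) ((γ • τ : ℍ) : ℂ) = P τ τ)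
    {M : ℕ} (hM : 0 < M)
    (hMper : ∀ γ : SL(2, ℤ), (M : ℝ) ∈ (ConjAct.toConjAct (Matrix.SpecialLinearGroup.mapGL ℝ γ) •
      Subgroup.map (Matrix.SpecialLinearGroup.mapGL ℝ) (CongruenceSubgroup.Gamma0 N)).strictPeriods)
    (δ : SL(2, ℤ)) :
    IsEP M (⇑f ∣[(n : ℤ) + 2] δ) ∧ ∃ κ : ℂ, ∀ z : ℍ,
      ((fun τ : ℍ => P τ (τ : ℂ)) ∣[-(n : ℤ)] δ) z = c * eich M n (⇑f ∣[(n : ℤ) + 2] δ) z z + κ := by
  have hMr : (0 : ℝ) < M := by exact_mod_cast hM
  have hper_conj : (M : ℝ) ∈ (ConjAct.toConjAct (δ : GL (Fin 2) ℝ)⁻¹ •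
      Subgroup.map (Matrix.SpecialLinearGroup.mapGL ℝ) (CongruenceSubgroup.Gamma0 N)).strictPeriods := by
    have := hMper δ⁻¹
    rwa [map_inv] at this
  set g : ℍ → ℂ := ⇑f ∣[(n : ℤ) + 2] δ with hgdef
  have hg : IsEP M g := by
    refine ⟨?_, ?_, ?_⟩
    · exact SlashInvariantFormClass.periodic_comp_ofComplex
        (CuspForm.translate f (δ : GL (Fin 2) ℝ)) hper_conj
    · exact (CuspForm.translate f (δ : GL (Fin 2) ℝ)).holo'
    · exact CuspFormClass.zero_at_infty_slash f δ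
  refine ⟨hg, ?_⟩
  -- the difference of the two kernel primitives
  set D : ℍ → ℍ → ℂ := fun z t =>
    denom (δ : GL (Fin 2) ℝ) t ^ n * P (δ • z) ((δ • t : ℍ) : ℂ) - c * eich M n g z t with hD
  have hDprim : ∀ t : ℍ, IsPrim (fun z => D z t) 0 := by
    intro t z
    have h1 := hasDerivAt_transform n ⇑f c P hderiv δ t z
    have h2 := (eich_hasDerivAt hMr n hg (t : ℂ) z).const_mul c
    have h3 := h1.sub h2
    refine h3.congr_deriv ?_
    simp only [Pi.zero_apply]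
    ring
  have hDconst : ∀ t z : ℍ, D z t = D UpperHalfPlane.I t := by
    intro t z
    obtain ⟨κ, hκ⟩ := (hDprim t).exists_const
    rw [hκ z, hκ UpperHalfPlane.I]
  obtain ⟨p, hp, hpe⟩ := hpoly (δ • UpperHalfPlane.I)
  obtain ⟨r, -, hre⟩ := eich_poly M n g UpperHalfPlane.I
  set q : ℂ[X] := polyAct n (δ : GL (Fin 2) ℝ) p - C c * r with hq
  have hqD : ∀ t : ℍ, D UpperHalfPlane.I t = q.eval (t : ℂ) := by
    intro t
    simp only [hD, hq, eval_sub, eval_mul, eval_C,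
      eval_polyAct n (δ : GL (Fin 2) ℝ) hp (denom_ne_zero _ t), hpe, hre, coe_smul_SL]
  -- the function `L z = (E ∣ δ) z - c * eich z z` agrees with `q` and is periodic
  set L : ℍ → ℂ := fun z =>
    ((fun τ : ℍ => P τ (τ : ℂ)) ∣[-(n : ℤ)] δ) z - c * eich M n g z z with hL
  have hLq : ∀ z : ℍ, L z = q.eval (z : ℂ) := by
    intro z
    rw [← hqD z, ← hDconst z z]
    simp only [hL, hD, ModularForm.SL_slash_apply, neg_neg, zpow_natCast]
    ring
  have hLper : Periodic (L ∘ ofComplex) ((M : ℝ) : ℂ) := by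
    have h1 : Periodic (((fun τ : ℍ => P τ (τ : ℂ)) ∣[-(n : ℤ)] δ) ∘ ofComplex) ((M : ℝ) : ℂ) :=
      SlashInvariantFormClass.periodic_comp_ofComplex
        (SlashInvariantForm.translate (diagSIF n P hinv) (δ : GL (Fin 2) ℝ)) hper_conj
    have h2 := (isEP_eich_diag hMr n hg).per
    intro w
    have e1 := h1 w
    have e2 := h2 w
    simp only [comp_apply] at e1 e2 ⊢
    simp only [hL]
    rw [e1, e2]
  have hqconst : q = C (q.eval (UpperHalfPlane.I : ℂ)) := by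
    apply eq_of_infinite_eval_eq
    have hsub : Set.range (fun m : ℕ => ((UpperHalfPlane.I : ℍ) : ℂ) + (m : ℂ) * ((M : ℝ) : ℂ)) ⊆
        {x | q.eval x = (C (q.eval ((UpperHalfPlane.I : ℍ) : ℂ))).eval x} := by
      rintro _ ⟨m, rfl⟩
      show q.eval _ = (C (q.eval ((UpperHalfPlane.I : ℍ) : ℂ))).eval _
      rw [eval_C]
      have hw : 0 < (((UpperHalfPlane.I : ℍ) : ℂ) + (m : ℂ) * ((M : ℝ) : ℂ)).im := by simp
      have e := (hLper.nat_mul m) ((UpperHalfPlane.I : ℍ) : ℂ)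
      simp only [comp_apply, ofComplex_apply] at e
      rw [ofComplex_apply_of_im_pos hw, hLq, hLq] at e
      exact e
    refine Set.Infinite.mono hsub (Set.infinite_range_of_injective ?_)
    intro a b hab
    have hM' : (((M : ℝ) : ℂ)) ≠ 0 := by exact_mod_cast hM.ne'
    have : (a : ℂ) * ((M : ℝ) : ℂ) = (b : ℂ) * ((M : ℝ) : ℂ) := add_left_cancel hab
    exact_mod_cast mul_right_cancel₀ hM' this
  refine ⟨q.eval (UpperHalfPlane.I : ℂ), fun z => ?_⟩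
  have h1 := hLq z
  rw [hqconst, eval_C] at h1
  simp only [hL] at h1
  linear_combination h1

/-- **Injectivity of the period map**, in a formulation independent of how polynomial-valued
primitives are represented: a kernel primitive `P` of `c * f τ * (τ - t) ^ n` which is invariant
under `Γ₀(N)` on the diagonal forces `f = 0`. -/
theorem inject_core (n : ℕ) (f : CuspForm (CongruenceSubgroup.Gamma0 N) ((n : ℤ) + 2))
    (c : ℂ) (hc : c ≠ 0) (P : ℍ → ℂ → ℂ)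
    (hpoly : ∀ τ : ℍ, ∃ p : ℂ[X], p.natDegree ≤ n ∧ ∀ t : ℂ, P τ t = p.eval t)
    (hderiv : ∀ (t : ℂ) (τ : ℍ),
      HasDerivAt (fun u : ℂ => P (ofComplex u) t) (c * f τ * ((τ : ℂ) - t) ^ n) (τ : ℂ))
    (hinv : ∀ γ ∈ CongruenceSubgroup.Gamma0 N, ∀ τ : ℍ,
      denom (γ : GL (Fin 2) ℝ) τ ^ n * P (γ • τ) ((γ • τ : ℍ) : ℂ) = P τ τ) :
    f = 0 := by
  obtain ⟨M, hM, hMper⟩ := Subgroup.IsArithmetic.exists_nat_mem_strictPeriods_conj
    (Subgroup.map (Matrix.SpecialLinearGroup.mapGL ℝ) (CongruenceSubgroup.Gamma0 N))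
  have hMr : (0 : ℝ) < M := by exact_mod_cast hM
  have A := exists_const_slash n f c P hpoly hderiv hinv hM hMper
  set E : ℍ → ℂ := fun τ => P τ (τ : ℂ) with hE
  have hbdd : ∀ δ : SL(2, ℤ), IsBoundedAtImInfty (E ∣[-(n : ℤ)] δ) := by
    intro δ
    obtain ⟨hg, κ, hκ⟩ := A δ
    have hz : Tendsto (fun τ : ℍ => eich M n (⇑f ∣[(n : ℤ) + 2] δ) τ τ) atImInfty (𝓝 0) :=
      (isEP_eich_diag hMr n hg).zero
    have h1 : Tendsto (E ∣[-(n : ℤ)] δ) atImInfty (𝓝 (c * 0 + κ)) :=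
      ((hz.const_mul c).add_const κ).congr (fun z => (hκ z).symm)
    exact h1.isBigO_one ℝ
  obtain ⟨hg1, κ1, hκ1⟩ := A 1
  have hf1 : (⇑f ∣[(n : ℤ) + 2] (1 : SL(2, ℤ))) = ⇑f := SlashAction.slash_one _ _
  have hE1 : (E ∣[-(n : ℤ)] (1 : SL(2, ℤ))) = E := SlashAction.slash_one _ _
  rw [hf1] at hg1 hκ1
  rw [hE1] at hκ1
  have hhol : MDifferentiable 𝓘(ℂ) 𝓘(ℂ) E := by
    have h1 := ((isEP_eich_diag hMr n hg1).hol.const_smul c).add
      (mdifferentiable_const (c := κ1) (I := 𝓘(ℂ)) (I' := 𝓘(ℂ)) (M := ℍ))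
    have : E = (c • fun τ : ℍ => eich M n (⇑f) τ (τ : ℂ)) + fun _ => κ1 := by
      funext z
      simp [hκ1 z]
    rw [this]
    exact h1
  have key : ∀ k' : ℤ, k' = -(n : ℤ) → ∃ F : ModularForm
      (Subgroup.map (Matrix.SpecialLinearGroup.mapGL ℝ) (CongruenceSubgroup.Gamma0 N)) k',
      ⇑F = E := by
    rintro k' rfl
    refine ⟨{ toSlashInvariantForm := diagSIF n P hinv, holo' := hhol, bdd_at_cusps' := ?_ }, rfl⟩
    intro c hc
    rw [Subgroup.IsArithmetic.isCusp_iff_isCusp_SL2Z] at hc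
    rw [OnePoint.isBoundedAt_iff_forall_SL2Z hc]
    intro γ _
    exact hbdd γ
  have hconst : ∃ κ' : ℂ, ∀ τ : ℍ, E τ = κ' := by
    rcases Nat.eq_zero_or_pos n with h0 | hpos
    · obtain ⟨F, hF⟩ := key 0 (by simp [h0])
      obtain ⟨c', hc'⟩ := ModularForm.eq_const_of_weight_zero F
      exact ⟨c', fun τ => by rw [← hF, hc']; rfl⟩
    · obtain ⟨F, hF⟩ := key (-(n : ℤ)) rfl
      have h0 := ModularForm.isZero_of_neg_weight (by simpa using hpos) F
      exact ⟨0, fun τ => by rw [← hF, h0]; rfl⟩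
  obtain ⟨κ', hκ'⟩ := hconst
  have hdiag : ∀ τ : ℍ, eich M n (⇑f) τ (τ : ℂ) = (κ' - κ1) / c := by
    intro τ
    have h1 := hκ1 τ
    rw [hκ' τ] at h1
    field_simp
    linear_combination -h1
  have h0 := eq_zero_of_eich_diag_const hMr n hg1 _ hdiag
  exact DFunLike.coe_injective h0

end Main

end

end Fermat.Agent.S22.Inject
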