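import Fermat.Agent.S22.CuspAux
import Fermat.Agent.S22.Cocycle
import Fermat.Agent.S22.EichlerExist

set_option autoImplicit false

namespace Fermat.Agent.S22.InjectPeriod

open Polynomial UpperHalfPlane Filter Topology CongruenceSubgroup Matrix.SpecialLinearGroup
open scoped MatrixGroups ModularForm Manifold
open Fermat.Agent.S22.EichlerDefs Fermat.Agent.S22.PolyAct Fermat.Agent.S22.Primitive
  Fermat.Agent.S22.Cocycle Fermat.Agent.S22.Slash

theorem det_mapGL (σ : SL(2, ℤ)) : (mapGL ℝ σ : GL (Fin 2) ℝ).val.det = 1 := by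
  rw [← Matrix.GeneralLinearGroup.val_det_apply]
  simp

/-- weight `-n` slash of the diagonal of a polynomial-valued function, determinant one. -/
theorem slash_diag (n : ℕ) (F : ℍ → ℂ[X]) (hF : ∀ τ, (F τ).natDegree ≤ n) (σ : SL(2, ℤ)) (τ : ℍ) :
    ((fun z : ℍ => (F z).eval (z : ℂ)) ∣[-(n : ℤ)] (mapGL ℝ σ)) τ =
      (polyAct n (mapGL ℝ σ) (F (mapGL ℝ σ • τ))).eval (τ : ℂ) := by
  have hdet := det_mapGL σ
  have hdet' : (mapGL ℝ σ : GL (Fin 2) ℝ).det.val = 1 := by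
    rw [Matrix.GeneralLinearGroup.val_det_apply]; exact hdet
  have hpos : 0 < (mapGL ℝ σ : GL (Fin 2) ℝ).det.val := by rw [hdet']; exact one_pos
  have hσ : ∀ x, UpperHalfPlane.σ (mapGL ℝ σ : GL (Fin 2) ℝ) x = x := by
    intro x
    simp [UpperHalfPlane.σ]
  rw [ModularForm.slash_apply, hσ, hdet', eval_polyAct n _ (hF _) (denom_ne_zero _ τ),
    coe_smul_of_det_pos hpos]
  simp
  ring

theorem eq_zero_of_period_eq_zero {N : ℕ} [NeZero N] {n : ℕ}
    (f : CuspForm (Gamma0 N) ((n : ℤ) + 2)) {F : ℍ → ℂ[X]} (h1 : IsE1 n f F) (h2 : IsE2 F)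
    (hper : ∀ γ ∈ Gamma0 N, period n F (mapGL ℝ γ) = 0) : f = 0 := by
  obtain ⟨F₀, h1₀, h2₀, g, hg, hdiag, hg0⟩ :=
    EichlerExist.exists_eichler n one_pos (CuspAux.isEP_one N f)
  obtain rfl : F = F₀ := eichler_unique h1 h2 h1₀ h2₀
  have hgfun : g = fun z : ℍ => (F z).eval (z : ℂ) := funext fun τ => (hdiag τ).symm
  have hN : (0 : ℝ) < N := by exact_mod_cast Nat.pos_of_ne_zero (NeZero.ne N)
  -- invariance of the diagonal
  have hinv : ∀ γ ∈ Gamma0 N, g ∣[-(n : ℤ)] (mapGL ℝ γ) = g := by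
    intro γ hγ
    funext τ
    have hpos : 0 < (mapGL ℝ γ : GL (Fin 2) ℝ).val.det := by rw [det_mapGL]; exact one_pos
    have hfγ : (⇑f) ∣[(n : ℤ) + 2] (mapGL ℝ γ) = ⇑f :=
      SlashInvariantFormClass.slash_action_eq f _ (Subgroup.mem_map_of_mem _ hγ)
    have hspec := period_spec h1 hpos hfγ τ
    rw [hper γ hγ, sub_eq_zero] at hspec
    rw [hgfun, slash_diag n F h1.1 γ τ, ← hspec]
  -- boundedness at all cusps
  have hbdd : ∀ σ : SL(2, ℤ), IsBoundedAtImInfty (g ∣[-(n : ℤ)] (mapGL ℝ σ)) := by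
    intro σ
    have hpos : 0 < (mapGL ℝ σ : GL (Fin 2) ℝ).val.det := by rw [det_mapGL]; exact one_pos
    obtain ⟨Fσ, h1σ, -, gσ, hgσ, hdiagσ, -⟩ :=
      EichlerExist.exists_eichler n hN (CuspAux.isEP_slash N f σ)
    have hD : IsE1 n 0 ((fun τ => polyAct n (mapGL ℝ σ) (F (mapGL ℝ σ • τ))) - Fσ) := by
      have := (IsE1.slash h1 hpos).sub h1σ
      rwa [sub_self] at this
    set P0 : ℂ[X] := polyAct n (mapGL ℝ σ) (F (mapGL ℝ σ • I)) - Fσ I with hP0
    have hconst : ∀ τ : ℍ, polyAct n (mapGL ℝ σ) (F (mapGL ℝ σ • τ)) = Fσ τ + P0 := by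
      intro τ
      have := hD.const_of_zero τ I
      simp only [Pi.sub_apply] at this
      rw [hP0, ← this]
      ring
    have hval : ∀ τ : ℍ, (g ∣[-(n : ℤ)] (mapGL ℝ σ)) τ = gσ τ + P0.eval (τ : ℂ) := by
      intro τ
      rw [hgfun, slash_diag n F h1.1 σ τ, hconst τ, eval_add, hdiagσ]
    have hperP : ∀ z : ℍ, P0.eval ((z : ℂ) + (N : ℝ)) = P0.eval (z : ℂ) := by
      intro z
      have e1 := CuspAux.slash_vadd_eq N (-(n : ℤ)) g hinv σ z
      rw [hval, hval] at e1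
      have e2 : gσ ((N : ℝ) +ᵥ z) = gσ z := by
        have := hgσ.per (z : ℂ)
        simp only [Function.comp_apply, ofComplex_apply] at this
        rw [← this]
        congr 1
        apply UpperHalfPlane.ext
        rw [UpperHalfPlane.coe_vadd]
        have hpos' : 0 < ((z : ℂ) + (N : ℝ)).im := by simpa using z.im_pos
        rw [ofComplex_apply_of_im_pos hpos']
        push_cast
        ring
      rw [e2] at e1
      have e3 : (((N : ℝ) +ᵥ z : ℍ) : ℂ) = (z : ℂ) + (N : ℝ) := by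
        rw [UpperHalfPlane.coe_vadd]
        ring
      rw [e3] at e1
      exact add_left_cancel e1
    have hC := CuspAux.polynomial_eq_C_of_periodic P0 hN.ne' hperP
    have hfun : g ∣[-(n : ℤ)] (mapGL ℝ σ) = gσ + fun _ => P0.coeff 0 := by
      funext τ
      rw [hval τ, hC]
      simp
    rw [hfun]
    exact hgσ.zero.boundedAtFilter.add (Filter.const_boundedAtFilter _ _)
  have hE : g = 0 := CuspAux.eq_zero_of_slash_invariant N n g hg.hol hinv hbdd hg.zero
  have hf0 : ∀ τ, f τ = 0 := hg0 fun τ => by rw [hE]; rfl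
  exact DFunLike.ext _ _ hf0

end Fermat.Agent.S22.InjectPeriod
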