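import Mathlib
import Fermat.Prelude.Def_CuspForm_HeckeAlgebra
import Fermat.Agent.S22.Cocycle
import Fermat.Agent.S22.HeckePerm

set_option autoImplicit false

namespace Fermat.Agent.S22.PeriodMap

open Polynomial UpperHalfPlane Matrix.SpecialLinearGroup CongruenceSubgroup ModularForm
open scoped MatrixGroups ModularForm
open Fermat.Agent.S22.PolyAct Fermat.Agent.S22.EichlerDefs Fermat.Agent.S22.Slash
  Fermat.Agent.S22.Cocycle Fermat.Agent.S22.HeckePerm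

noncomputable section

/-- every cusp form of weight `n + 2` has an Eichler primitive. -/
def HasEichler (N : ℕ) (n : ℕ) : Prop :=
  ∀ f : CuspForm (Gamma0 N) ((n : ℤ) + 2), ∃ F : ℍ → ℂ[X], IsE1 n (⇑f) F ∧ IsE2 F

variable {N : ℕ} {n : ℕ}

def eichF (hex : HasEichler N n) (f : CuspForm (Gamma0 N) ((n : ℤ) + 2)) : ℍ → ℂ[X] :=
  Classical.choose (hex f)

theorem eichF_isE1 (hex : HasEichler N n) (f : CuspForm (Gamma0 N) ((n : ℤ) + 2)) :
    IsE1 n (⇑f) (eichF hex f) := (Classical.choose_spec (hex f)).1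

theorem eichF_isE2 (hex : HasEichler N n) (f : CuspForm (Gamma0 N) ((n : ℤ) + 2)) :
    IsE2 (eichF hex f) := (Classical.choose_spec (hex f)).2

theorem eichF_eq (hex : HasEichler N n) (f : CuspForm (Gamma0 N) ((n : ℤ) + 2))
    {F : ℍ → ℂ[X]} (h1 : IsE1 n (⇑f) F) (h2 : IsE2 F) : eichF hex f = F :=
  eichler_unique (eichF_isE1 hex f) (eichF_isE2 hex f) h1 h2

theorem eichF_add (hex : HasEichler N n) (f g : CuspForm (Gamma0 N) ((n : ℤ) + 2)) :
    eichF hex (f + g) = eichF hex f + eichF hex g := by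
  refine eichF_eq hex (f + g) ?_ ((eichF_isE2 hex f).add (eichF_isE2 hex g))
  have h := (eichF_isE1 hex f).add (eichF_isE1 hex g)
  have e : (⇑(f + g) : ℍ → ℂ) = ⇑f + ⇑g := by
    funext τ
    simp
  rwa [e]

theorem eichF_smul (hex : HasEichler N n) (c : ℂ) (f : CuspForm (Gamma0 N) ((n : ℤ) + 2)) :
    eichF hex (c • f) = c • eichF hex f := by
  refine eichF_eq hex (c • f) ?_ ((eichF_isE2 hex f).smul c)
  have h := (eichF_isE1 hex f).smul c
  have e : (⇑(c • f) : ℍ → ℂ) = c • ⇑f := by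
    funext τ
    simp
  rwa [e]

/-- the period map at `γ`, linear in the cusp form. -/
def per (hex : HasEichler N n) (γ : SL(2, ℤ)) :
    CuspForm (Gamma0 N) ((n : ℤ) + 2) →ₗ[ℂ] ℂ[X] where
  toFun f := period n (eichF hex f) (mapGL ℝ γ)
  map_add' f g := by rw [eichF_add, period_add]
  map_smul' c f := by rw [eichF_smul, period_smul]; rfl

theorem per_apply (hex : HasEichler N n) (γ : SL(2, ℤ))
    (f : CuspForm (Gamma0 N) ((n : ℤ) + 2)) :
    per hex γ f = period n (eichF hex f) (mapGL ℝ γ) := rfl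

theorem mapGL_entry (γ : SL(2, ℤ)) (i j : Fin 2) :
    ((mapGL ℝ γ : GL (Fin 2) ℝ) i j : ℝ) = ((γ i j : ℤ) : ℝ) := by
  simp

theorem mapGL_int (γ : SL(2, ℤ)) (i j : Fin 2) :
    ∃ z : ℤ, ((mapGL ℝ γ : GL (Fin 2) ℝ) i j : ℝ) = z :=
  ⟨γ i j, mapGL_entry γ i j⟩

theorem det_mapGL_pos (γ : SL(2, ℤ)) : 0 < (mapGL ℝ γ : GL (Fin 2) ℝ).val.det := by
  have h := γ.det_coe
  rw [Matrix.det_fin_two] at h
  rw [Matrix.det_fin_two]
  simp only [mapGL_entry]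
  have h' := congrArg (Int.cast : ℤ → ℝ) h
  push_cast at h'
  rw [h']
  exact one_pos

theorem slash_mapGL_eq (f : CuspForm (Gamma0 N) ((n : ℤ) + 2)) {γ : SL(2, ℤ)}
    (hγ : γ ∈ Gamma0 N) : (⇑f : ℍ → ℂ) ∣[(n : ℤ) + 2] (mapGL ℝ γ) = ⇑f :=
  SlashInvariantFormClass.slash_action_eq f (mapGL ℝ γ) (Subgroup.mem_map_of_mem (mapGL ℝ) hγ)

theorem per_natDegree_le (hex : HasEichler N n) (γ : SL(2, ℤ))
    (f : CuspForm (Gamma0 N) ((n : ℤ) + 2)) : (per hex γ f).natDegree ≤ n := by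
  rw [per_apply, period]
  exact (natDegree_sub_le _ _).trans
    (max_le ((eichF_isE1 hex f).1 _) (natDegree_polyAct_le n _ _))

theorem per_mul (hex : HasEichler N n) {γ : SL(2, ℤ)} (hγ : γ ∈ Gamma0 N) (δ : SL(2, ℤ))
    (f : CuspForm (Gamma0 N) ((n : ℤ) + 2)) :
    per hex (γ * δ) f = per hex δ f + polyAct n (mapGL ℝ δ) (per hex γ f) := by
  simp only [per_apply, map_mul]
  exact period_mul (eichF_isE1 hex f) (det_mapGL_pos γ) (slash_mapGL_eq f hγ)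

theorem per_one (hex : HasEichler N n) (f : CuspForm (Gamma0 N) ((n : ℤ) + 2)) :
    per hex 1 f = 0 := by
  simp only [per_apply, map_one]
  exact period_one (eichF_isE1 hex f)

theorem per_inv (hex : HasEichler N n) {γ : SL(2, ℤ)} (hγ : γ ∈ Gamma0 N)
    (f : CuspForm (Gamma0 N) ((n : ℤ) + 2)) :
    per hex γ⁻¹ f = - polyAct n (mapGL ℝ γ⁻¹) (per hex γ f) := by
  simp only [per_apply, map_inv]
  exact period_inv (eichF_isE1 hex f) (det_mapGL_pos γ) (slash_mapGL_eq f hγ)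

/-! ### the Hecke representatives -/

theorem heckeMatrix_entries {p : ℕ} (hp : p ≠ 0) (j : ℕ) :
    (heckeMatrix p j : GL (Fin 2) ℝ) 0 0 = 1 ∧ (heckeMatrix p j : GL (Fin 2) ℝ) 0 1 = j ∧
    (heckeMatrix p j : GL (Fin 2) ℝ) 1 0 = 0 ∧ (heckeMatrix p j : GL (Fin 2) ℝ) 1 1 = p := by
  simp [val_heckeMatrix hp]

theorem heckeDiagMatrix_entries {p : ℕ} (hp : p ≠ 0) :
    (heckeDiagMatrix p : GL (Fin 2) ℝ) 0 0 = p ∧ (heckeDiagMatrix p : GL (Fin 2) ℝ) 0 1 = 0 ∧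
    (heckeDiagMatrix p : GL (Fin 2) ℝ) 1 0 = 0 ∧ (heckeDiagMatrix p : GL (Fin 2) ℝ) 1 1 = 1 := by
  simp [val_heckeDiagMatrix hp]

theorem heckeMatrix_int {p : ℕ} (hp : p ≠ 0) (j : ℕ) (a b : Fin 2) :
    ∃ z : ℤ, ((heckeMatrix p j : GL (Fin 2) ℝ) a b : ℝ) = z := by
  obtain ⟨h1, h2, h3, h4⟩ := heckeMatrix_entries hp j
  fin_cases a <;> fin_cases b
  · exact ⟨1, by simpa using h1⟩
  · exact ⟨j, by simpa using h2⟩
  · exact ⟨0, by simpa using h3⟩
  · exact ⟨p, by simpa using h4⟩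

theorem heckeDiagMatrix_int {p : ℕ} (hp : p ≠ 0) (a b : Fin 2) :
    ∃ z : ℤ, ((heckeDiagMatrix p : GL (Fin 2) ℝ) a b : ℝ) = z := by
  obtain ⟨h1, h2, h3, h4⟩ := heckeDiagMatrix_entries hp
  fin_cases a <;> fin_cases b
  · exact ⟨p, by simpa using h1⟩
  · exact ⟨0, by simpa using h2⟩
  · exact ⟨0, by simpa using h3⟩
  · exact ⟨1, by simpa using h4⟩

theorem tRep_int {p : ℕ} (hp : p ≠ 0) (x : OnePoint (ZMod p)) (a b : Fin 2) :
    ∃ z : ℤ, ((tRep p x : GL (Fin 2) ℝ) a b : ℝ) = z := by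
  induction x using OnePoint.rec with
  | infty => exact heckeDiagMatrix_int hp a b
  | coe j => exact heckeMatrix_int hp j.val a b

theorem tRep_upper {p : ℕ} (hp : p ≠ 0) (x : OnePoint (ZMod p)) :
    (tRep p x : GL (Fin 2) ℝ) 1 0 = 0 ∧ 0 < (tRep p x : GL (Fin 2) ℝ) 0 0 ∧
      0 < (tRep p x : GL (Fin 2) ℝ) 1 1 := by
  have hp' : (0 : ℝ) < p := by exact_mod_cast Nat.pos_of_ne_zero hp
  induction x using OnePoint.rec with
  | infty =>
    obtain ⟨h1, h2, h3, h4⟩ := heckeDiagMatrix_entries hp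
    rw [tRep_infty]
    exact ⟨h3, by rw [h1]; exact hp', by rw [h4]; exact one_pos⟩
  | coe j =>
    obtain ⟨h1, h2, h3, h4⟩ := heckeMatrix_entries hp j.val
    rw [tRep_coe]
    exact ⟨h3, by rw [h1]; exact one_pos, by rw [h4]; exact hp'⟩

theorem det_pos_of_upper {g : GL (Fin 2) ℝ} (hc : g 1 0 = 0) (ha : 0 < g 0 0) (hd : 0 < g 1 1) :
    0 < g.val.det := by
  rw [Matrix.det_fin_two, hc]
  simp only [mul_zero, sub_zero]
  positivity

theorem eichF_heckeT (hex : HasEichler N n) {p : ℕ} [NeZero p] (hp : p.Prime) (hpN : ¬ p ∣ N)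
    (f : CuspForm (Gamma0 N) ((n : ℤ) + 2)) :
    eichF hex (CuspForm.heckeTLin ((n : ℤ) + 2) hp hpN f) = heckeF n (tRep p) (eichF hex f) := by
  have hu := tRep_upper hp.ne_zero
  refine eichF_eq hex _ ?_ (isE2_heckeF (eichF_isE2 hex f) (tRep p) (fun x => (hu x).1)
    (fun x => (hu x).2.1) (fun x => (hu x).2.2))
  have h := isE1_heckeF (eichF_isE1 hex f) (tRep p)
    (fun x => det_pos_of_upper (hu x).1 (hu x).2.1 (hu x).2.2)
  rwa [CuspForm.coe_heckeTLin_apply, heckeT_eq_sum_tRep]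

theorem eichF_heckeU (hex : HasEichler N n) [NeZero N] {p : ℕ} [NeZero p] (hpN : p ∣ N)
    (f : CuspForm (Gamma0 N) ((n : ℤ) + 2)) :
    eichF hex (CuspForm.heckeULin ((n : ℤ) + 2) hpN f) =
      heckeF n (fun x : ZMod p => heckeMatrix p x.val) (eichF hex f) := by
  have hp : p ≠ 0 := NeZero.ne p
  have hp' : (0 : ℝ) < p := by exact_mod_cast Nat.pos_of_ne_zero hp
  have hu : ∀ x : ZMod p, (heckeMatrix p x.val : GL (Fin 2) ℝ) 1 0 = 0 ∧
      0 < (heckeMatrix p x.val : GL (Fin 2) ℝ) 0 0 ∧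
      0 < (heckeMatrix p x.val : GL (Fin 2) ℝ) 1 1 := by
    intro x
    obtain ⟨h1, h2, h3, h4⟩ := heckeMatrix_entries hp x.val
    exact ⟨h3, by rw [h1]; exact one_pos, by rw [h4]; exact hp'⟩
  refine eichF_eq hex _ ?_ (isE2_heckeF (eichF_isE2 hex f) _ (fun x => (hu x).1)
    (fun x => (hu x).2.1) (fun x => (hu x).2.2))
  have h := isE1_heckeF (eichF_isE1 hex f) (fun x : ZMod p => heckeMatrix p x.val)
    (fun x => det_pos_of_upper (hu x).1 (hu x).2.1 (hu x).2.2)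
  rwa [CuspForm.coe_heckeULin_apply, heckeU_eq_sum_zmod]

theorem per_heckeT (hex : HasEichler N n) {p : ℕ} [NeZero p] (hp : p.Prime) (hpN : ¬ p ∣ N)
    {γ : SL(2, ℤ)} (hγ : γ ∈ Gamma0 N) :
    ∃ (σ : Equiv.Perm (OnePoint (ZMod p))) (γ' : OnePoint (ZMod p) → SL(2, ℤ)),
      (∀ x, γ' x ∈ Gamma0 N) ∧
      ∀ f : CuspForm (Gamma0 N) ((n : ℤ) + 2),
        per hex γ (CuspForm.heckeTLin ((n : ℤ) + 2) hp hpN f) =
          ∑ x, polyAct n (tRep p (σ x)) (per hex (γ' x) f) := by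
  obtain ⟨σ, g', hg', hrel⟩ := exists_perm_T hp hpN γ hγ
  refine ⟨σ, g', hg', fun f => ?_⟩
  rw [per_apply, eichF_heckeT]
  exact period_heckeF (eichF_isE1 hex f) (tRep p) σ (mapGL ℝ γ) (fun x => mapGL ℝ (g' x))
    (fun x => det_mapGL_pos (g' x)) (fun x => slash_mapGL_eq f (hg' x)) hrel

theorem per_heckeU (hex : HasEichler N n) [NeZero N] {p : ℕ} [NeZero p] (hpN : p ∣ N)
    {γ : SL(2, ℤ)} (hγ : γ ∈ Gamma0 N) :
    ∃ (σ : Equiv.Perm (ZMod p)) (γ' : ZMod p → SL(2, ℤ)),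
      (∀ x, γ' x ∈ Gamma0 N) ∧
      ∀ f : CuspForm (Gamma0 N) ((n : ℤ) + 2),
        per hex γ (CuspForm.heckeULin ((n : ℤ) + 2) hpN f) =
          ∑ x, polyAct n (heckeMatrix p (σ x).val) (per hex (γ' x) f) := by
  obtain ⟨σ, g', hg', hrel⟩ := exists_perm_U hpN γ hγ
  refine ⟨σ, g', hg', fun f => ?_⟩
  rw [per_apply, eichF_heckeU hex hpN]
  exact period_heckeF (eichF_isE1 hex f) (fun x : ZMod p => heckeMatrix p x.val) σ (mapGL ℝ γ)
    (fun x => mapGL ℝ (g' x)) (fun x => det_mapGL_pos (g' x))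
    (fun x => slash_mapGL_eq f (hg' x)) hrel

end

end Fermat.Agent.S22.PeriodMap
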